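import Fermat.Agent.S43.CH.Cyc
import Fermat.Agent.ES.D.Adic.Conj

/-!
# S43 / Fin / Cyc : values of the cyclotomic character `CH.cyc n`      (leaf (L4) of the board post #3554)

* `cyc_inertia`      : `cyc n s = 1` for `s` in the inertia group of `A ∣ q`, `q ∤ n`;
* `cyc_inertia_val`  : the same in `ZMod n`, and `cyc_inertia_natVal` for `.val` (`1 < n`);
* `cyc_frobenius`    : `(cyc n Ph : ZMod n) = q` for a Frobenius `Ph` at `A ∣ q`, `q ∤ n`  (`= CH.cyc_frob`);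
* `cyc_of_conj`      : `(cyc n c : ZMod n) = -1` if `c` inverts all roots of unity;
* `exists_conj`      : a complex conjugation `c : GQ`, `c * c = 1`, `cyc n c = -1` for ALL `n` at once.
-/

set_option autoImplicit false

namespace Fermat.Agent.S43.Fin

open Fermat.Agent.ES Fermat.Agent.S43.CH

theorem cyc_inertia_val (n : ℕ) [NeZero n] {q : ℕ} (hq : q.Prime) (hqn : ¬ q ∣ n)
    (A : ValuationSubring Qb) (hA : A.LiesOverPrime q) (s : GQ) (hs : s ∈ A.inertiaSubgroupIn ℚ) :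
    ((cyc n s : (ZMod n)ˣ) : ZMod n) = 1 := by
  rw [cyc_eq_of n s 1 (fun z hz => by
    rw [pow_one]
    exact Fermat.Agent.S31.inertia_apply_root A hq hA s hs hqn hz), Nat.cast_one]

theorem cyc_inertia (n : ℕ) [NeZero n] {q : ℕ} (hq : q.Prime) (hqn : ¬ q ∣ n)
    (A : ValuationSubring Qb) (hA : A.LiesOverPrime q) (s : GQ) (hs : s ∈ A.inertiaSubgroupIn ℚ) :
    cyc n s = 1 :=
  Units.ext (by rw [cyc_inertia_val n hq hqn A hA s hs, Units.val_one])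

theorem cyc_frobenius (n : ℕ) [NeZero n] {q : ℕ} (hq : q.Prime) (hqn : ¬ q ∣ n)
    (A : ValuationSubring Qb) (hA : A.LiesOverPrime q) (Ph : GQ) (hPh : A.IsFrobeniusAt Ph q) :
    ((cyc n Ph : (ZMod n)ˣ) : ZMod n) = (q : ZMod n) :=
  cyc_frob n hq hqn A hA Ph hPh

theorem cyc_of_conj (n : ℕ) [NeZero n] {c : GQ}
    (hc : ∀ ζ : Qb, ∀ m : ℕ, m ≠ 0 → ζ ^ m = 1 → c ζ = ζ⁻¹) :
    ((cyc n c : (ZMod n)ˣ) : ZMod n) = -1 := by
  have hn : n ≠ 0 := NeZero.ne n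
  have hn1 : 1 ≤ n := Nat.one_le_iff_ne_zero.2 hn
  have h1 := cyc_eq_of n c (n - 1) (fun z hz => by
    rw [hc z n hn hz]
    apply inv_eq_of_mul_eq_one_right
    rw [← pow_succ', Nat.sub_add_cancel hn1, hz])
  rw [h1, Nat.cast_sub hn1, ZMod.natCast_self, Nat.cast_one, zero_sub]

theorem cyc_of_conj_units (n : ℕ) [NeZero n] {c : GQ}
    (hc : ∀ ζ : Qb, ∀ m : ℕ, m ≠ 0 → ζ ^ m = 1 → c ζ = ζ⁻¹) : cyc n c = -1 :=
  Units.ext (by rw [cyc_of_conj n hc, Units.val_neg, Units.val_one])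

/-- a complex conjugation. -/
theorem exists_conj : ∃ c : GQ, c * c = 1 ∧
    (∀ ζ : Qb, ∀ m : ℕ, m ≠ 0 → ζ ^ m = 1 → c ζ = ζ⁻¹) ∧
    ∀ (n : ℕ) [NeZero n], ((cyc n c : (ZMod n)ˣ) : ZMod n) = -1 := by
  obtain ⟨c, hcc, hc⟩ := Fermat.Agent.ES.D.exists_complexConj
  exact ⟨c, hcc, hc, fun n _ => cyc_of_conj n hc⟩

/-- `(cyc n g).val • x = e • x` on a group killed by `n`, if `(cyc n g : ZMod n) = e`. -/
theorem cyc_val_zsmul {K : Type*} [AddCommGroup K] (n : ℕ) [NeZero n] (hK : ∀ x : K, n • x = 0)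
    (g : GQ) (e : ℤ) (he : ((cyc n g : (ZMod n)ˣ) : ZMod n) = (e : ZMod n)) (x : K) :
    ((((cyc n g : (ZMod n)ˣ) : ZMod n).val : ℕ) : ℤ) • x = e • x := by
  have h1 : (((((cyc n g : (ZMod n)ˣ) : ZMod n).val : ℕ) : ℤ) : ZMod n) = (e : ZMod n) := by
    rw [Int.cast_natCast, ZMod.natCast_zmod_val, he]
  rw [ZMod.intCast_eq_intCast_iff_dvd_sub] at h1
  obtain ⟨k, hk⟩ := h1
  have h2 : e = ((((cyc n g : (ZMod n)ˣ) : ZMod n).val : ℕ) : ℤ) + (n : ℤ) * k := by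
    rw [← hk]; ring
  have h3 : ((n : ℤ) * k) • x = 0 := by
    rw [mul_comm, mul_smul, natCast_zsmul, hK, smul_zero]
  rw [h2, add_smul, h3, add_zero]

end Fermat.Agent.S43.Fin
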