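import Mathlib
import Fermat.Agent.S43.Alg.DPrime

/-!
# S43 / Fin / D : the finite end game (LEMMA D' of helper94, board #3414)        Mathlib only

`K` an abelian group with an action `ρ` of a group `G`; `Jc ≤ K` a `G`-stable subgroup killed by `p ^ (a + 1)`;
`t(g) := g + d(g) g⁻¹`.
(CH) `t(g)` commutes with `G` on `Jc`; (LOC) `t(Σ) = 2`, `t(Φ) = ε (q + 1)`; (GA); (TR); `κ` an involution.
Then `κ` fixes `g P` for every `κ`-fixed `P ∈ W`.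

PROOF (#3414).  `N = Σ - 1`, `A = Φ - ε`.  Pick `Q ∈ Jc`, `p ^ a Q = P`, `κ Q = Q` (average; `2` is invertible on `Jc`).
For `g` take `P'` from (GA) for `g P`; `z = P' - g Q` is killed by `p ^ a`, `N z = - N g Q`, `A z = c g P - A g Q`; (TR):
(*) `A g Q = c g P + β (N g Q)`.  Add (*) for `g` and `g` (*) for `1`: `(A g + g A) Q = 2 c g P + β ((N g + g N) Q)`.
Polarised Cayley-Hamilton (for group elements `g h + h g = t(g h) - t(g) t(h) + t(h) g + t(g) h`, formal from (CH)):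
`g Φ + Φ g`, `g Σ + Σ g`.  Subtract `t(g)` (*) for `1`:   `c g P = t(g A) Q - β (t(g N) Q)`, with
`t(g A) = t(g Φ) - ε t(g)`, `t(g N) = t(g Σ) - t(g)`.  The right side is fixed by `κ`.
-/

set_option autoImplicit false

namespace Fermat.Agent.S43.Fin

theorem lemmaD {K G : Type*} [AddCommGroup K] [Group G] (ρ : G → K →+ K)
    (h1 : ∀ x, ρ 1 x = x) (hmul : ∀ g h x, ρ (g * h) x = ρ g (ρ h x)) (d : G → ℤ)
    (p a q : ℕ) (hp : p.Prime) (hp2 : p ≠ 2) (ε c : ℤ) (hε : ε = 1 ∨ ε = -1)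
    (hq : (q : ℤ) - 1 = ε * c * (p : ℤ) ^ a) (hc : ¬ (p : ℤ) ∣ c)
    (Jc : AddSubgroup K) (hJG : ∀ g, ∀ x ∈ Jc, ρ g x ∈ Jc) (hJp : ∀ x ∈ Jc, p ^ (a + 1) • x = 0)
    -- (CH)
    (hCH : ∀ g h, ∀ x ∈ Jc, ρ h (ρ g x + d g • ρ g⁻¹ x) = ρ g (ρ h x) + d g • ρ g⁻¹ (ρ h x))
    (hd : ∀ g h, ∀ x ∈ Jc, d (g * h) • x = (d g * d h) • x)
    -- (LOC)
    (Sg Ph : G) (hdS : ∀ x ∈ Jc, d Sg • x = x) (hdP : ∀ x ∈ Jc, d Ph • x = (q : ℤ) • x)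
    (hS : ∀ x ∈ Jc, ρ Sg x + ρ Sg⁻¹ x = (2 : ℤ) • x)
    (hP : ∀ x ∈ Jc, ρ Ph x + (q : ℤ) • ρ Ph⁻¹ x = (ε * ((q : ℤ) + 1)) • x)
    -- (GA)
    (W : AddSubgroup K) (hWJ : W ≤ Jc) (hWG : ∀ g, ∀ x ∈ W, ρ g x ∈ W) (hWp : ∀ x ∈ W, p • x = 0)
    (hGA : ∀ P ∈ W, ∃ P' ∈ Jc, p ^ a • P' = P ∧ ρ Sg P' = P' ∧ ρ Ph P' = (ε * (q : ℤ)) • P')
    -- (TR)
    (β : K → K)
    (hβadd : ∀ x ∈ Jc, ∀ y ∈ Jc, p ^ a • x = 0 → p ^ a • y = 0 → β (x + y) = β x + β y)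
    (hβG : ∀ g, ∀ x ∈ Jc, p ^ a • x = 0 → β (ρ g x) = ρ g (β x))
    (hTR : ∀ z ∈ Jc, p ^ a • z = 0 → ρ Ph z - ε • z = β (ρ Sg z - z))
    (κ : G) (hκ : κ * κ = 1) (P : K) (hPW : P ∈ W) (hκP : ρ κ P = P) (g : G) :
    ρ κ (ρ g P) = ρ g P := by
  have hpow : ∀ x : K, ((p : ℤ) ^ a) • x = p ^ a • x := fun x => by
    rw [← Nat.cast_pow, natCast_zsmul]
  have hεε : ε * ε = 1 := by rcases hε with h | h <;> rw [h] <;> norm_num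
  have hq' : ε * ((q : ℤ) - 1) = c * (p : ℤ) ^ a := by
    rw [hq]
    linear_combination (c * (p : ℤ) ^ a) * hεε
  have hcop : IsCoprime c (p : ℤ) :=
    ((Nat.prime_iff_prime_int.mp hp).coprime_iff_not_dvd.2 hc).symm
  refine Fermat.Agent.S43.Alg.dprime ρ h1 hmul Jc hJG d hd
    (fun g h x hx => hCH g h x hx) (p : ℤ) a Sg Ph ε c (q : ℤ) hq' ?_ ?_ W hWJ hWG ?_ β ?_ ?_ ?_
    hcop ?_ κ P hPW hκP g
  · intro x hx
    unfold Fermat.Agent.S43.Alg.TT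
    rw [hdS _ (hJG _ _ hx)]
    exact hS x hx
  · intro x hx
    unfold Fermat.Agent.S43.Alg.TT
    rw [hdP _ (hJG _ _ hx)]
    exact hP x hx
  · intro P1 hP1
    obtain ⟨P', h1', h2', h3', h4'⟩ := hGA P1 hP1
    exact ⟨P', h1', by rw [hpow, h2'], h3', h4'⟩
  · intro x hx hx0 y hy hy0
    exact hβadd x hx y hy (by rw [← hpow, hx0]) (by rw [← hpow, hy0])
  · intro g x hx hx0
    exact hβG g x hx (by rw [← hpow, hx0])
  · intro z hz hz0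
    exact hTR z hz (by rw [← hpow, hz0])
  · intro x hx
    rw [natCast_zsmul]
    exact hWp x hx

end Fermat.Agent.S43.Fin
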