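import Fermat.Agent.S43.Defs
import Fermat.Agent.S43.ESide.Main

/-!
# S43 / Fin / End : the two soft ends of `Core` around lemma D'

Level `N = M q`, exponent `p ≠ q`.  From a nonzero `x ∈ XX (M q) p S a` (`a = a(W)`, `E[p]` irreducible and unramified at `A ∣ q`):

* a sign `ε`, an irreducible Galois submodule `U ≤ XX` on which `w = -ε`, on which the inertia group of `A` acts trivially (`ker_transfer`),
* and the statement "the conclusion of D' for `W = U` is absurd": if `κ P = P ⟹ κ g P = g P` for all involutions `κ` and all `g ∈ G_ℚ`, `P ∈ U`, then complex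
  conjugation is `± 1` on `U`, hence `2 g = t(g) ± t(c g)` is a scalar for all `g`, hence `E[p]` is a line.
-/

set_option autoImplicit false

open AlgebraicCurve ModularCurve

namespace Fermat.Agent.S43.Fin

open Fermat.Agent.ES Fermat.Agent.SS Fermat.Agent.S33 Fermat.Agent.S58 Fermat.Agent.S44.Soft

section Abs

variable {k G V : Type*} [Field k] [Group G] [AddCommGroup V] [Module k V]

/-- an involution which is `± 1`, with `om c = -1`, forces everything to be scalar. -/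
theorem all_scalar_of_sign {ρ : G →* Module.End k V} {om : G →* kˣ} {t : G → k}
    (hCH : CH ρ om t) (h2 : (2 : k) ≠ 0) {c : G} (hcc : c * c = 1)
    (hom : ((om c : kˣ) : k) = -1) (e : k) (he : e * e = 1)
    (hc : ρ c = e • (1 : Module.End k V)) (g : G) : IsScalar (ρ g) := by
  have hci : c⁻¹ = c := inv_eq_of_mul_eq_one_left hcc
  have h1 := hCH g
  have h3 := hCH (c * g)
  rw [map_mul, map_mul, Units.val_mul, hom, mul_inv_rev, map_mul, hci, hc, smul_mul_assoc, one_mul,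
    mul_smul_comm, mul_one] at h3
  refine ⟨(2 : k)⁻¹ * (t g + e * t (c * g)), ?_⟩
  have h4 : (2 : k) • ρ g = (t g + e * t (c * g)) • (1 : Module.End k V) := by
    rw [add_smul, mul_smul, ← h1, ← h3, smul_add, smul_smul, he, one_smul, smul_smul, smul_smul,
      two_smul]
    have : e * (-1 * ((om g : kˣ) : k)) * e = -((om g : kˣ) : k) := by
      linear_combination (-((om g : kˣ) : k)) * he
    rw [this, neg_smul]
    abel
  rw [mul_smul, ← h4, smul_smul, inv_mul_cancel₀ h2, one_smul]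

/-- the conclusion of D' on an irreducible module with (CH) forces everything to be scalar. -/
theorem all_scalar_of_dprime {ρ : G →* Module.End k V} {om : G →* kˣ} {t : G → k}
    (hirr : Irr ρ) (hCH : CH ρ om t) (h2 : (2 : k) ≠ 0) {c : G} (hcc : c * c = 1)
    (hom : ((om c : kˣ) : k) = -1)
    (hD : ∀ g : G, ∀ P : V, ρ c P = P → ρ c (ρ g P) = ρ g P) (g : G) : IsScalar (ρ g) := by
  have hcc' : ∀ x, ρ c (ρ c x) = x := by
    intro x
    rw [← Module.End.mul_apply, ← map_mul, hcc, map_one, Module.End.one_apply]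
  by_cases hP : ∃ P : V, P ≠ 0 ∧ ρ c P = P
  · obtain ⟨P, hP0, hcP⟩ := hP
    have htop := hirr.span_orbit hP0
    have hle : Submodule.span k (Set.range fun g : G => ρ g P) ≤ LinearMap.ker (ρ c - 1) := by
      rw [Submodule.span_le]
      rintro _ ⟨g, rfl⟩
      change ρ g P ∈ LinearMap.ker (ρ c - 1)
      rw [LinearMap.mem_ker, LinearMap.sub_apply, Module.End.one_apply, hD g P hcP, sub_self]
    rw [htop, top_le_iff, LinearMap.ker_eq_top, sub_eq_zero] at hle
    exact all_scalar_of_sign hCH h2 hcc hom 1 (one_mul 1) (by rw [hle, one_smul]) g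
  · push Not at hP
    have hneg : ρ c = (-1 : k) • (1 : Module.End k V) := by
      refine LinearMap.ext fun x => ?_
      have h0 : x + ρ c x = 0 := by
        by_contra hne
        exact hP _ hne (by rw [map_add, hcc', add_comm])
      rw [LinearMap.smul_apply, Module.End.one_apply, neg_smul, one_smul]
      exact eq_neg_of_add_eq_zero_right h0
    exact all_scalar_of_sign hCH h2 hcc hom (-1) (by ring) hneg g

end Abs

/-- `wKum` respects the eigenspaces (level prime `q`, exponent `p`). -/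
theorem wKum_mem_XX' {M q p : ℕ} [NeZero M] [NeZero q] (hp : p.Prime) (hq : q.Prime)
    {w : FF (M * q) →ₐ[Qb] FF (M * q)} (hw : IsAL M q w)
    (S : Finset ℕ) (hpS : p ∈ S) (a : ℕ → ℤ) {x : Kum (M * q) p} (hx : x ∈ XX (M * q) p S a) :
    wKum hw hq p x ∈ XX (M * q) p S a := by
  rw [mem_XX] at hx ⊢
  intro ℓ _ hℓ hℓN hℓS
  have hℓp : ℓ ≠ p := fun h => hℓS (h ▸ hpS)
  have hℓp' : ¬ ℓ ∣ p := fun h => hℓp ((Nat.prime_dvd_prime_iff_eq hℓ hp).mp h)
  obtain ⟨A, hA, φ, hφ⟩ := Fermat.Agent.S54.exists_frob ℓ hℓ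
  rw [heckeKum_eq_frob hp.ne_zero hℓ hℓN hℓp' A hA φ hφ, galKum_wKum hw hq, galKum_wKum hw hq,
    ← map_nsmul, ← map_add, ← heckeKum_eq_frob hp.ne_zero hℓ hℓN hℓp' A hA φ hφ,
    hx ℓ hℓ hℓN hℓS, map_zsmul]

/-- **the soft ends of `Core`.** -/
theorem exists_U {M q p : ℕ} [NeZero M] [NeZero q] (hp : p.Prime) (hp2 : p ≠ 2) (hq : q.Prime)
    (A : ValuationSubring Qb)
    {w : FF (M * q) →ₐ[Qb] FF (M * q)} (hw : IsAL M q w)
    (W : WeierstrassCurve ℤ) (hΔ : W.Δ ≠ 0)
    (hirr : WeierstrassCurve.Affine.Point.GaloisRepIsIrreducible (K := Qb) ℚ (EQ W) p)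
    (S : Finset ℕ) (hpS : p ∈ S) (hqS : q ∈ S)
    (hMS : ∀ r : ℕ, r.Prime → r ∣ M → r ∈ S) (hWS : ∀ r : ℕ, r.Prime → (r : ℤ) ∣ W.Δ → r ∈ S)
    (htriv : ∀ s ∈ A.inertiaSubgroupIn ℚ, ∀ R : Pts W, p • R = 0 → s • R = R)
    (x : Kum (M * q) p) (hx : x ∈ XX (M * q) p S (fun ℓ => W.apOfModel ℓ)) (hx0 : x ≠ 0) :
    ∃ (ε : ℤ) (U : Submodule (ZMod p) (Kum (M * q) p)), (ε = 1 ∨ ε = -1) ∧ U ≠ ⊥ ∧
      U ≤ XX (M * q) p S (fun ℓ => W.apOfModel ℓ) ∧
      (∀ g : GQ, ∀ y ∈ U, galKum (M * q) p g y ∈ U) ∧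
      (∀ y ∈ U, wKum hw hq p y = (-ε) • y) ∧
      (∀ s ∈ A.inertiaSubgroupIn ℚ, ∀ y ∈ U, galKum (M * q) p s y = y) ∧
      ((∀ κ g : GQ, κ * κ = 1 → ∀ P ∈ U, galKum (M * q) p κ P = P →
        galKum (M * q) p κ (galKum (M * q) p g P) = galKum (M * q) p g P) → False) := by
  have : Fact p.Prime := ⟨hp⟩
  have hNS : ∀ r : ℕ, r.Prime → r ∣ M * q → r ∈ S := by
    intro r hr h
    rcases (Nat.Prime.dvd_mul hr).1 h with h | h
    · exact hMS r hr h
    · rw [(Nat.prime_dvd_prime_iff_eq hr hq).1 h]; exact hqS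
  choose L J hL hLS hom hU hX using exists_approx hp2 (M * q) W hΔ S hpS hNS hWS
  set t : GQ → ZMod p := fun g => luc ((W.apOfModel (L g) : ℤ) : ZMod p) (L g : ZMod p) (J g) with ht
  have hCHU : CH (torRep W p) (om p) t := hU
  have hirrU : Irr (torRep W p) := irr_torRep W p hirr
  have hnsU : ∃ h : GQ, ¬ IsScalar (torRep W p h) := by
    by_contra hcon
    push Not at hcon
    have h1 := finrank_eq_one_of_all_scalar hirrU hcon
    rw [finrank_tor W hΔ p] at h1
    omega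
  have : Finite (Kum (M * q) p) := Fermat.Agent.ES.Glue.finite_Kum hp.pos
  have : FiniteDimensional (ZMod p) (Kum (M * q) p) := Module.Finite.of_finite
  set X := XX (M * q) p S (fun ℓ => W.apOfModel ℓ) with hXdef
  let wE : Module.End (ZMod p) (Kum (M * q) p) := (wKum hw hq p).toZModLinearMap p
  have h2 : (2 : ZMod p) ≠ 0 := by
    intro h
    have h3 : ((2 : ℕ) : ZMod p) = 0 := by exact_mod_cast h
    rw [ZMod.natCast_eq_zero_iff] at h3
    exact hp2 ((Nat.prime_dvd_prime_iff_eq hp Nat.prime_two).1 h3)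
  have hXne : X ≠ ⊥ := by
    intro h
    rw [h] at hx
    exact hx0 hx
  obtain ⟨ε, hε, x₁, hx₁X, hx₁0, hwx₁⟩ := exists_eps h2 X hXne wE
    (fun x hx => wKum_mem_XX' hp hq hw S hpS _ hx) (fun x => wKum_wKum hw hq x)
  let Xe : Submodule (ZMod p) (Kum (M * q) p) :=
    X ⊓ LinearMap.ker (wE - ε • (1 : Module.End (ZMod p) (Kum (M * q) p)))
  have hmemXe : ∀ x, x ∈ Xe ↔ x ∈ X ∧ wKum hw hq p x = ε • x := by
    intro x
    rw [Submodule.mem_inf, LinearMap.mem_ker]
    constructor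
    · rintro ⟨h1, h2⟩
      exact ⟨h1, sub_eq_zero.1 h2⟩
    · rintro ⟨h1, h2⟩
      exact ⟨h1, sub_eq_zero.2 h2⟩
  have hXe : Stable (galRep (M * q) p) Xe := by
    intro g x hx
    rw [hmemXe] at hx ⊢
    refine ⟨stable_XX (M * q) p S _ g x hx.1, ?_⟩
    rw [galRep_apply, ← galKum_wKum, hx.2, map_zsmul]
  have hXene : Xe ≠ ⊥ := by
    intro h
    have : x₁ ∈ Xe := (hmemXe x₁).2 ⟨hx₁X, hwx₁⟩
    rw [h] at this
    exact hx₁0 this
  obtain ⟨V₀, hV₀, hle, hirr0⟩ := exists_irr_sub (galRep (M * q) p) Xe hXe hXene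
  have hV₀X : ∀ x ∈ V₀, x ∈ X := fun x hx => ((hmemXe x).1 (hle hx)).1
  have hV₀w : ∀ x ∈ V₀, wKum hw hq p x = ε • x := fun x hx => ((hmemXe x).1 (hle hx)).2
  have hCH0 : CH (res (galRep (M * q) p) V₀ hV₀) (om p) t :=
    CH.res_of_forall V₀ hV₀ (fun g x hx => hX g x (hV₀X x hx))
  have hnt0 := hirr0.1
  refine ⟨-ε, V₀, ?_, ?_, hV₀X, fun g y hy => hV₀ g y hy, ?_, ?_, ?_⟩
  · rcases hε with h | h
    · right; rw [h]
    · left; rw [h]; rfl
  · exact (Submodule.nontrivial_iff_ne_bot).1 hnt0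
  · intro y hy
    rw [neg_neg]
    exact hV₀w y hy
  · intro s hs y hy
    have h1 : torRep W p s = 1 := (torRep_eq_one_iff W p s).2 (htriv s hs)
    have h3 := ker_transfer hCHU hCH0 hnsU hirr0 s h1
    exact congrArg (fun f : Module.End (ZMod p) V₀ => ((f ⟨y, hy⟩ : V₀) : Kum (M * q) p)) h3
  · intro hD
    obtain ⟨c, hcc, hc⟩ := Fermat.Agent.ES.D.exists_complexConj
    have homc := Fermat.Agent.S43.ESide.om_complexConj p hc
    have hs0 : ∀ g : GQ, IsScalar (res (galRep (M * q) p) V₀ hV₀ g) :=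
      all_scalar_of_dprime hirr0 hCH0 h2 hcc homc (fun g P hP => by
        apply Subtype.ext
        exact hD c g hcc (P : Kum (M * q) p) P.2 (congrArg Subtype.val hP))
    obtain ⟨h, hh⟩ := hnsU
    exact hh (scalar_transfer hCHU hCH0 hirrU hs0 h)

end Fermat.Agent.S43.Fin
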