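import Fermat.Agent.S43.Fin.Defs
import Fermat.Agent.S43.Fin.End
import Fermat.Agent.S43.Tame.Kum

/-!
# S43 / Fin / Data : small facts needed to build a `Fin.Ctx` and to feed lemma D'

* `exists_nonEis`   : the field `hnE` of `Ctx` (a non Eisenstein prime), from the irreducibility of `E[p]`;
* `exists_exp`      : `e` with `p ^ e ∥ q - 1`;
* `sig_add_inv`     : `σ + σ⁻¹ = 2` on `Kum (M q) m` for `σ` in the inertia group at `q` (`q ∤ m`);
* `exists_c`        : `q - 1 = ε * c * p ^ e` with `p ∤ c`.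
-/

set_option autoImplicit false

open AlgebraicCurve ModularCurve

namespace Fermat.Agent.S43.Fin

open Fermat.Agent.ES Fermat.Agent.SS Fermat.Agent.S33 Fermat.Agent.S58 Fermat.Agent.S44.Soft

/-- a non Eisenstein prime. -/
theorem exists_nonEis {p : ℕ} (hp : p.Prime) (hp2 : p ≠ 2) (N : ℕ) [NeZero N]
    (W : WeierstrassCurve ℤ) (hΔ : W.Δ ≠ 0)
    (hirr : WeierstrassCurve.Affine.Point.GaloisRepIsIrreducible (K := Qb) ℚ (EQ W) p)
    (S : Finset ℕ) (hpS : p ∈ S) (hNS : ∀ r : ℕ, r.Prime → r ∣ N → r ∈ S)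
    (hWS : ∀ r : ℕ, r.Prime → (r : ℤ) ∣ W.Δ → r ∈ S) :
    ∃ ℓ : ℕ, ℓ.Prime ∧ ℓ ∉ S ∧ ¬ (p : ℤ) ∣ W.apOfModel ℓ - ℓ - 1 := by
  have : Fact p.Prime := ⟨hp⟩
  choose L J hL hLS hom hU hX using exists_approx hp2 N W hΔ S hpS hNS hWS
  set t : GQ → ZMod p := fun g => luc ((W.apOfModel (L g) : ℤ) : ZMod p) (L g : ZMod p) (J g) with ht
  have hCHU : CH (torRep W p) (om p) t := hU
  have hirrU : Irr (torRep W p) := irr_torRep W p hirr
  have hnsU : ∃ h : GQ, ¬ IsScalar (torRep W p h) := by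
    by_contra hcon
    push Not at hcon
    have h1 := finrank_eq_one_of_all_scalar hirrU hcon
    rw [finrank_tor W hΔ p] at h1
    omega
  by_contra hcon
  push Not at hcon
  obtain ⟨h, hh⟩ := hnsU
  apply hh
  refine all_scalar_of_split hirrU 1 (om p) ?_ h
  intro g
  have h1 := hCHU g
  have h2 : ((W.apOfModel (L g) : ℤ) : ZMod p) = 1 + (L g : ZMod p) := by
    have h3 := hcon (L g) (hL g) (hLS g)
    rw [← ZMod.intCast_zmod_eq_zero_iff_dvd] at h3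
    push_cast at h3
    linear_combination h3
  have h4 : (1 * om p : GQ →* (ZMod p)ˣ) = om p := by
    ext g
    simp
  rw [h4, h1, ht]
  simp only [MonoidHom.one_apply, Units.val_one]
  rw [h2, luc_split, hom g]

/-- `p ^ e ∥ n`. -/
theorem exists_exp {p n : ℕ} (hp : p.Prime) (hn : n ≠ 0) :
    ∃ e : ℕ, p ^ e ∣ n ∧ ¬ p ^ (e + 1) ∣ n := by
  have hfin : FiniteMultiplicity p n := Nat.finiteMultiplicity_iff.2 ⟨hp.ne_one, Nat.pos_of_ne_zero hn⟩
  exact ⟨multiplicity p n, pow_multiplicity_dvd p n, hfin.not_pow_dvd_of_multiplicity_lt (Nat.lt_succ_self _)⟩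

/-- `q - 1 = ε c p ^ e`, `p ∤ c`. -/
theorem exists_c {p q e : ℕ} (hq : 1 ≤ q) (he : p ^ e ∣ q - 1) (he' : ¬ p ^ (e + 1) ∣ q - 1)
    {ε : ℤ} (hε : ε = 1 ∨ ε = -1) :
    ∃ c : ℤ, (q : ℤ) - 1 = ε * c * (p : ℤ) ^ e ∧ ¬ (p : ℤ) ∣ c := by
  obtain ⟨c, hc⟩ := he
  have h1 : (q : ℤ) - 1 = (p : ℤ) ^ e * c := by
    have : ((q - 1 : ℕ) : ℤ) = (q : ℤ) - 1 := by push_cast [hq]; ring
    rw [← this, hc]
    push_cast
    ring
  have hpc : ¬ (p : ℤ) ∣ (c : ℤ) := by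
    intro h
    have h2 : p ∣ c := by exact_mod_cast h
    obtain ⟨d, rfl⟩ := h2
    exact he' ⟨d, by rw [hc, pow_succ]; ring⟩
  refine ⟨ε * c, ?_, ?_⟩
  · have hεε : ε * ε = 1 := by rcases hε with h | h <;> rw [h] <;> norm_num
    rw [h1]
    linear_combination (-(c : ℤ) * (p : ℤ) ^ e) * hεε
  · rcases hε with h | h
    · rw [h, one_mul]; exact hpc
    · rw [h, neg_one_mul, dvd_neg]; exact hpc

/-- `σ + σ⁻¹ = 2` for `σ` in the inertia group. -/
theorem sig_add_inv {M q m : ℕ} [NeZero M] [NeZero q] (hq : q.Prime) (hqM : ¬ q ∣ M)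
    (hqm : ¬ q ∣ m) (A : ValuationSubring Qb) (hA : A.LiesOverPrime q) {s : GQ}
    (hs : s ∈ A.inertiaSubgroupIn ℚ) (x : Kum (M * q) m) :
    galKum (M * q) m s x + galKum (M * q) m s⁻¹ x = (2 : ℤ) • x := by
  have h := core34 hq hqM hqm (GM2.crux2 M q m hq hqM hqm) A hA s⁻¹ s
    ((A.inertiaSubgroupIn ℚ).inv_mem hs) hs x
  rw [map_sub, ← galKum_mul, mul_inv_cancel, galKum_one] at h
  rw [two_smul]
  have h2 : galKum (M * q) m s x + galKum (M * q) m s⁻¹ x - (x + x)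
      = -(x - galKum (M * q) m s x - (galKum (M * q) m s⁻¹ x - x)) := by abel
  rw [← sub_eq_zero, h2, h, sub_self, neg_zero]

end Fermat.Agent.S43.Fin
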