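import Fermat.Agent.S43.Fin.Defs
import Fermat.Agent.S44.Soft.Comm
import Fermat.Agent.S44.Soft.AbsRed

/-!
# S43 / Fin / Pow : `powMap` is equivariant; stability of `Vth`, `J`; an abstract lemma on complex conjugation
-/

set_option autoImplicit false

open AlgebraicCurve ModularCurve

namespace Fermat.Agent.S43.Fin

open Fermat.Agent.ES Fermat.Agent.SS Fermat.Agent.S30 Fermat.Agent.S44.Soft

theorem galKum_powMap {N m m' : ℕ} (k : ℕ) (h : m' = m * k) (σ : GQ) (x : Kum N m) :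
    galKum N m' σ (powMap k h x) = powMap k h (galKum N m σ x) := by
  obtain ⟨f, rfl⟩ := Kum.mk_surjective x
  rw [powMap_mk, galKum_mk, galKum_mk, powMap_mk]
  congr 1
  apply Subtype.ext
  simp only [coe_powD, map_pow]

theorem wKum_powMap {M q : ℕ} [NeZero M] [NeZero q] {w : FF (M * q) →ₐ[Qb] FF (M * q)}
    (hw : IsAL M q w) (hq : q.Prime) {m m' : ℕ} (k : ℕ) (h : m' = m * k) (x : Kum (M * q) m) :
    wKum hw hq m' (powMap k h x) = powMap k h (wKum hw hq m x) := by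
  obtain ⟨f, rfl⟩ := Kum.mk_surjective x
  rw [powMap_mk, wKum_mk, wKum_mk, powMap_mk]
  congr 1
  apply Subtype.ext
  simp only [coe_powD, map_pow]

/-- an additive map commuting with Galois commutes with `T_ℓ` (Eichler-Shimura). -/
theorem heckeKum_comm_of_gal {N m m' : ℕ} [NeZero N] (hm : m ≠ 0) (hm' : m' ≠ 0)
    (f : Kum N m →+ Kum N m')
    (hf : ∀ (σ : GQ) (x : Kum N m), galKum N m' σ (f x) = f (galKum N m σ x))
    (ℓ : ℕ) [NeZero ℓ] (hℓ : ℓ.Prime) (hℓN : ¬ ℓ ∣ N) (hℓm : ¬ ℓ ∣ m) (hℓm' : ¬ ℓ ∣ m')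
    (x : Kum N m) : heckeKum N ℓ hℓ hℓN m' (f x) = f (heckeKum N ℓ hℓ hℓN m x) := by
  obtain ⟨A, hA, φ, hφ⟩ := Fermat.Agent.S54.exists_frob ℓ hℓ
  rw [heckeKum_eq_frob hm' hℓ hℓN hℓm' A hA φ hφ, heckeKum_eq_frob hm hℓ hℓN hℓm A hA φ hφ,
    hf, hf, map_add, map_nsmul]

/-- `Vth` is Galois stable. -/
theorem galKum_mem_Vth {N m : ℕ} [NeZero N] {S : Finset ℕ} {a : ℕ → ℤ} (σ : GQ) {x : Kum N m}
    (hx : x ∈ Vth N m S a) : galKum N m σ x ∈ Vth N m S a := by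
  intro ℓ _ hℓ hℓN hS
  obtain ⟨n, hn⟩ := hx ℓ hℓ hℓN hS
  refine ⟨n, ?_⟩
  have hcomm : Function.Semiconj (galKum N m σ) (hk N m a ℓ hℓ hℓN) (hk N m a ℓ hℓ hℓN) := by
    intro y
    rw [hk_apply, hk_apply, map_sub, map_zsmul, galKum_heckeKum]
  rw [← (hcomm.iterate_right n).eq, hn, map_zero]

theorem Ctx.galKum_mem_J {M q p : ℕ} [NeZero M] [NeZero q] (C : Ctx M q p) {k : ℕ} (σ : GQ)
    {x : Kum (M * q) (p ^ k)} (hx : x ∈ C.J k) : galKum (M * q) (p ^ k) σ x ∈ C.J k := by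
  rw [C.mem_J] at hx ⊢
  refine ⟨galKum_mem_Vth σ hx.1, ?_⟩
  rw [← galKum_wKum, hx.2, map_neg, map_zsmul]

section Abs

variable {k G V : Type*} [Field k] [Group G] [AddCommGroup V] [Module k V]

/-- if an element `κ` with `om κ = -1` acts as `± 1` then everything is scalar. -/
theorem all_scalar_of_kappa {ρ : G →* Module.End k V} {om : G →* kˣ} {t : G → k} (hCH : CH ρ om t)
    (h2 : (2 : k) ≠ 0) (κ : G) (hom : ((om κ : kˣ) : k) = -1) (c : k) (hc : c * c = 1)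
    (hκ : ρ κ = c • (1 : Module.End k V)) : ∀ g : G, IsScalar (ρ g) := by
  intro g
  have hκ' : ρ κ⁻¹ = c • (1 : Module.End k V) := by
    have h := rho_inv_mul ρ κ
    rw [hκ, mul_smul_comm, mul_one] at h
    have h3 : c • (c • ρ κ⁻¹) = c • (1 : Module.End k V) := by rw [h]
    rwa [smul_smul, hc, one_smul] at h3
  have e1 := hCH (κ * g)
  have e2 := hCH g
  rw [map_mul, map_mul, mul_inv_rev, map_mul, hκ, hκ', Units.val_mul, hom, smul_mul_assoc, one_mul,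
    mul_smul_comm, mul_one] at e1
  refine ⟨(2 : k)⁻¹ * (t g + c * t (κ * g)), ?_⟩
  have e3 : c • (c • ρ g + (-1 * ((om g : kˣ) : k)) • c • ρ g⁻¹)
      = (c * t (κ * g)) • (1 : Module.End k V) := by rw [e1, smul_smul]
  have e4 : ρ g - ((om g : kˣ) : k) • ρ g⁻¹ = (c * t (κ * g)) • (1 : Module.End k V) := by
    rw [← e3, smul_add, smul_smul, smul_smul, smul_smul, hc, one_smul]
    have : c * (-1 * ((om g : kˣ) : k)) * c = -((om g : kˣ) : k) := by
      linear_combination (-((om g : kˣ) : k)) * hc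
    rw [this, neg_smul, sub_eq_add_neg]
  have e5 : (2 : k) • ρ g = (t g + c * t (κ * g)) • (1 : Module.End k V) := by
    rw [add_smul, ← e2, ← e4, two_smul]
    abel
  rw [mul_smul, ← e5, smul_smul, inv_mul_cancel₀ h2, one_smul]

end Abs

end Fermat.Agent.S43.Fin
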