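import Fermat.Agent.S43.Fin.Defs
import Fermat.Agent.S43.Fin.Pow
import Fermat.Agent.S43.Fin.D
import Fermat.Agent.S43.Fin.End
import Fermat.Agent.S43.Fin.Cyc
import Fermat.Agent.S43.CH.X0
import Fermat.Agent.S43.Tame.Kum
import Fermat.Agent.S43.Tame.Cyc
import Fermat.Agent.S43.Fin.Data
import Fermat.Agent.S54.Frobenius

/-!
# S43 / Fin / Main : `XBlock + TBlock ⟹ Core`
-/

set_option autoImplicit false

open AlgebraicCurve ModularCurve

namespace Fermat.Agent.S43.Fin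

open Fermat.Agent.ES Fermat.Agent.SS Fermat.Agent.S33 Fermat.Agent.S58 Fermat.Agent.S30
open Fermat.Agent.S44.Soft (XX mem_XX)

/-- `ℤ`-smul by `u.val` on a group killed by `n`. -/
theorem val_zsmul_of_coe {n : ℕ} [NeZero n] {X : Type*} [AddCommGroup X]
    (hX : ∀ x : X, n • x = 0) (u : ZMod n) (k : ℤ) (hk : u = (k : ZMod n))
    (x : X) : ((u.val : ℕ) : ℤ) • x = k • x := by
  have h1 : (((u.val : ℕ) : ℤ) : ZMod n) = (k : ZMod n) := by
    rw [Int.cast_natCast, ZMod.natCast_zmod_val, hk]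
  rw [ZMod.intCast_eq_intCast_iff_dvd_sub] at h1
  obtain ⟨t, ht⟩ := h1
  have h2 : k = ((u.val : ℕ) : ℤ) + (n : ℤ) * t := by linarith
  have h3 : ((n : ℤ)) • x = 0 := by rw [natCast_zsmul, hX]
  rw [h2, add_smul, mul_comm, mul_smul, h3, smul_zero, add_zero]

/-- the conclusion of D' for one context. -/
theorem dprime_of_ctx {M q p : ℕ} [NeZero M] [NeZero q] (C : Ctx M q p) (hLOC : C.LOC) (hGA : C.GA)
    (hTR : 1 ≤ C.e → C.TR)
    (U : AddSubgroup (Kum (M * q) p))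
    (hUX : ∀ y ∈ U, y ∈ XX (M * q) p C.S C.a)
    (hUG : ∀ g : GQ, ∀ y ∈ U, galKum (M * q) p g y ∈ U)
    (hUw : ∀ y ∈ U, wKum C.hw C.hq p y = (-C.ε) • y)
    (hUI : ∀ y ∈ U, galKum (M * q) p C.Sg y = y)
    (κ g : GQ) (hκ : κ * κ = 1) (P : Kum (M * q) p) (hP : P ∈ U) (hκP : galKum (M * q) p κ P = P) :
    galKum (M * q) p κ (galKum (M * q) p g P) = galKum (M * q) p g P := by
  have hp := C.hp
  have hq := C.hq
  have hp2 : p ≠ 2 := by have := C.hp5; omega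
  set n : ℕ := p ^ (C.e + 1) with hn
  have hn0 : n ≠ 0 := pow_ne_zero _ hp.ne_zero
  haveI : NeZero n := ⟨hn0⟩
  have hqn : ¬ q ∣ n := fun h =>
    C.hqp ((Nat.prime_dvd_prime_iff_eq hq hp).1 (hq.dvd_of_dvd_pow h))
  have hpe : n = p * p ^ C.e := pow_succ' p C.e
  have hpe0 : p ^ C.e ≠ 0 := pow_ne_zero _ hp.ne_zero
  -- the inclusion
  let ι : Kum (M * q) p →+ Kum (M * q) n := powMap (p ^ C.e) hpe
  have hιinj : Function.Injective ι := powMap_injective (p ^ C.e) hpe hpe0 hp.ne_zero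
  have hιG : ∀ (s : GQ) (x : Kum (M * q) p), galKum (M * q) n s (ι x) = ι (galKum (M * q) p s x) :=
    fun s x => galKum_powMap (p ^ C.e) hpe s x
  -- `q - 1 = ε c p ^ e`
  obtain ⟨c₀, hc₀⟩ := C.he
  have hc₀p : ¬ p ∣ c₀ := by
    rintro ⟨c₁, rfl⟩
    apply C.he'
    rw [hc₀, pow_succ]
    exact ⟨c₁, by ring⟩
  have hεε : C.ε * C.ε = 1 := by
    rcases C.hε with h | h <;> rw [h] <;> norm_num
  have hq1 : (q : ℤ) - 1 = C.ε * (C.ε * c₀) * (p : ℤ) ^ C.e := by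
    have h1 : ((q - 1 : ℕ) : ℤ) = (q : ℤ) - 1 := by
      rw [Nat.cast_sub hq.one_le, Nat.cast_one]
    rw [← h1, hc₀]
    push_cast
    linear_combination (-(c₀ : ℤ) * (p : ℤ) ^ C.e) * hεε
  have hcp : ¬ (p : ℤ) ∣ C.ε * c₀ := by
    intro h
    apply hc₀p
    have h2 : (p : ℤ) ∣ (c₀ : ℤ) := by
      have := Dvd.dvd.mul_left h C.ε
      rwa [← mul_assoc, hεε, one_mul] at this
    exact_mod_cast h2
  have hkill : ∀ x : Kum (M * q) n, n • x = 0 := fun x => Kum.nsmul_eq_zero x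
  -- the character
  let d : GQ → ℤ := fun s => ((((CH.cyc n s : (ZMod n)ˣ) : ZMod n)).val : ℤ)
  -- `β`
  obtain ⟨β, hβadd, hβG, hβTR⟩ : C.TR := by
    by_cases he : 1 ≤ C.e
    · exact hTR he
    · have he0 : C.e = 0 := by omega
      refine ⟨fun _ => 0, fun _ _ _ _ _ _ => (add_zero _).symm, fun s _ _ _ => (map_zero _).symm, ?_⟩
      intro z _ hz
      have h1 : p ^ C.e = 1 := by rw [he0, pow_zero]
      rw [h1, one_smul] at hz
      rw [hz, map_zero, smul_zero, sub_zero]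
  have hinvol : ∀ (s : GQ) (x : Kum (M * q) n), galKum (M * q) n s (galKum (M * q) n s⁻¹ x) = x := by
    intro s x
    rw [← galKum_mul, mul_inv_cancel, galKum_one]
  have hinvol' : ∀ (s : GQ) (x : Kum (M * q) n), galKum (M * q) n s⁻¹ (galKum (M * q) n s x) = x := by
    intro s x
    rw [← galKum_mul, inv_mul_cancel, galKum_one]
  have hιJ : ∀ y ∈ U, ι y ∈ C.Jc := by
    intro y hy
    show ι y ∈ C.J (C.e + 1)
    rw [C.mem_J]
    constructor
    · intro ℓ _ hℓ hℓN hS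
      refine ⟨1, ?_⟩
      have hℓp : ℓ ≠ p := fun h => hS (h ▸ C.hpS)
      have hℓp' : ¬ ℓ ∣ p := fun h => hℓp ((Nat.prime_dvd_prime_iff_eq hℓ hp).mp h)
      have hℓn : ¬ ℓ ∣ n := fun h => hℓp' (hℓ.dvd_of_dvd_pow h)
      rw [Function.iterate_one, hk_apply]
      have h1 := heckeKum_comm_of_gal hp.ne_zero hn0 ι hιG ℓ hℓ hℓN hℓp' hℓn y
      rw [h1, hUX y hy ℓ hℓ hℓN hS, map_zsmul, sub_self]
    · have h1 : wKum C.hw C.hq n (ι y) = ι (wKum C.hw C.hq p y) :=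
        wKum_powMap C.hw C.hq (p ^ C.e) hpe y
      rw [h1, hUw y hy, map_zsmul, neg_smul]
  have key := lemmaD (K := Kum (M * q) n) (G := GQ) (fun s => galKum (M * q) n s)
    (fun x => by rw [galKum_one]) (fun s s' x => by rw [galKum_mul]) d p C.e q hp hp2 C.ε
    (C.ε * c₀) C.hε hq1 hcp C.Jc (fun s x hx => C.galKum_mem_J s hx) (fun x _ => hkill x)
    (fun s h x _ => by
      have := CH.tOp0_galKum (M * q) n s h x
      simp only [CH.tOp0] at this
      simp only [d, natCast_zsmul]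
      exact this)
    (fun s h x _ => by
      simp only [d]
      refine val_zsmul_of_coe hkill _ _ ?_ x
      rw [map_mul, Units.val_mul]
      push_cast
      rw [ZMod.natCast_zmod_val, ZMod.natCast_zmod_val])
    C.Sg C.Ph
    (fun x _ => by
      simp only [d]
      rw [val_zsmul_of_coe hkill _ 1
        (by rw [cyc_inertia n hq hqn C.A C.hA C.Sg C.hSg.1, Units.val_one, Int.cast_one]),
        one_smul])
    (fun x _ => by
      simp only [d]
      rw [val_zsmul_of_coe hkill _ (q : ℤ)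
        (by rw [cyc_frobenius n hq hqn C.A C.hA C.Ph C.hPh, Int.cast_natCast])])
    (fun x _ => by
      have h34 := core34 hq C.hqM hqn (GM2.crux2 M q n hq C.hqM hqn) C.A C.hA C.Sg C.Sg C.hSg.1
        C.hSg.1 (galKum (M * q) n C.Sg⁻¹ x)
      rw [hinvol, map_sub, hinvol] at h34
      have : galKum (M * q) n C.Sg x + galKum (M * q) n C.Sg⁻¹ x = x + x := by
        have h5 : galKum (M * q) n C.Sg x - x = x - galKum (M * q) n C.Sg⁻¹ x := h34
        have h6 : galKum (M * q) n C.Sg x + galKum (M * q) n C.Sg⁻¹ x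
            = (galKum (M * q) n C.Sg x - x) + x + galKum (M * q) n C.Sg⁻¹ x := by abel
        rw [h6, h5]
        abel
      rw [this, two_smul])
    (fun x hx => by
      have h := hLOC (galKum (M * q) n C.Ph⁻¹ x) (C.galKum_mem_J _ hx)
      simp only [Ctx.g] at h
      rw [hinvol] at h
      have h6 : galKum (M * q) n C.Ph x + (q : ℤ) • galKum (M * q) n C.Ph⁻¹ x
          = (galKum (M * q) n C.Ph x - (C.ε * ((q : ℤ) + 1)) • x
              + (q : ℤ) • galKum (M * q) n C.Ph⁻¹ x) + (C.ε * ((q : ℤ) + 1)) • x := by abel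
      rw [h6, h, zero_add])
    (U.map ι)
    (by
      rintro _ ⟨y, hy, rfl⟩
      exact hιJ y hy)
    (by
      rintro s _ ⟨y, hy, rfl⟩
      exact ⟨galKum (M * q) p s y, hUG s y hy, (hιG s y).symm⟩)
    (by
      rintro _ ⟨y, _, rfl⟩
      rw [← map_nsmul, Kum.nsmul_eq_zero, map_zero])
    (by
      rintro _ ⟨y, hy, rfl⟩
      exact hGA (ι y) (hιJ y hy) (by rw [← map_nsmul, Kum.nsmul_eq_zero, map_zero])
        (by rw [Ctx.g, hιG, hUI y hy]))
    β hβadd hβG hβTR κ hκ (ι P) ⟨P, hP, rfl⟩ (by rw [hιG, hκP]) g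
  apply hιinj
  rw [← hιG, ← hιG]
  exact key

/-- a Frobenius times an element of the inertia group is a Frobenius. -/
theorem isFrobeniusAt_mul_inertia {q : ℕ} {A : ValuationSubring Qb} {φ s : GQ}
    (hφ : A.IsFrobeniusAt φ q) (hs : s ∈ A.inertiaSubgroupIn ℚ) : A.IsFrobeniusAt (φ * s) q := by
  obtain ⟨τ, hτ, rfl⟩ := Subgroup.mem_map.mp hs
  obtain ⟨hφD, hφx⟩ := hφ
  refine ⟨(A.decompositionSubgroup ℚ).mul_mem hφD τ.2, fun x => ?_⟩
  have hτ1 : τ • x = x := by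
    have h1 : MulSemiringAction.toRingAut (A.decompositionSubgroup ℚ)
      (IsLocalRing.ResidueField A) τ = 1 := hτ
    exact congrArg (fun f => f x) h1
  have h2 : (⟨φ * (A.decompositionSubgroup ℚ).subtype τ,
      (A.decompositionSubgroup ℚ).mul_mem hφD τ.2⟩ : A.decompositionSubgroup ℚ)
      = (⟨φ, hφD⟩ : A.decompositionSubgroup ℚ) * τ := rfl
  rw [h2, mul_smul, hτ1, hφx]

/-- a Frobenius at `A ∣ q` which is trivial on `μ_q`. -/
theorem exists_Ph {q : ℕ} [NeZero q] (hq : q.Prime) (A : ValuationSubring Qb)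
    (hA : A.LiesOverPrime q) : ∃ Ph : GQ, A.IsFrobeniusAt Ph q ∧ CH.cyc q Ph = 1 := by
  obtain ⟨φ, hφ⟩ := Fermat.Agent.S54.exists_isFrobeniusAt q hq A hA
  obtain ⟨s, hs, hsc⟩ := Tame.cyc_surj_inertia hq A hA (CH.cyc q φ)⁻¹
  exact ⟨φ * s, isFrobeniusAt_mul_inertia hφ hs, by rw [map_mul, hsc, mul_inv_cancel]⟩

/-- **`XBlock + TBlock ⟹ Core`.** -/
theorem core_of_blocks {M q p : ℕ} [NeZero M] [NeZero q] (hp : p.Prime) (hp5 : 5 ≤ p)
    (hq : q.Prime) (hq2 : q ≠ 2) (hqp : q ≠ p) (hqM : ¬ q ∣ M) (hpM : ¬ p ∣ M)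
    (hMsq : Squarefree M) (hX : XBlock M q p) (hT : TBlock M q p) : Core M q p := by
  intro A hA W hΔ hirr S hpS hqS hMS hWS hSep htriv x hx
  by_contra hx0
  have hp2 : p ≠ 2 := by omega
  have hNS : ∀ r : ℕ, r.Prime → r ∣ M * q → r ∈ S := by
    intro r hr h
    rcases (Nat.Prime.dvd_mul hr).1 h with h | h
    · exact hMS r hr h
    · rw [(Nat.prime_dvd_prime_iff_eq hr hq).1 h]; exact hqS
  obtain ⟨w, hw⟩ := exists_isAL M q hq hqM
  obtain ⟨ε, U, hε, hU0, hUX, hUG, hUw, hUI, hfalse⟩ :=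
    exists_U hp hp2 hq A hw W hΔ hirr S hpS hqS hMS hWS htriv x hx hx0
  obtain ⟨Sg, hSgI, hSg, -⟩ := Tame.exists_gen_kum (M := M) hq hqM hp hp2 hqp A hA
  obtain ⟨Ph, hPh, hPh1⟩ := exists_Ph hq A hA
  obtain ⟨e, he, he'⟩ : ∃ e : ℕ, p ^ e ∣ q - 1 ∧ ¬ p ^ (e + 1) ∣ q - 1 := by
    have hq1 : q - 1 ≠ 0 := by have := hq.two_le; omega
    refine ⟨(q - 1).factorization p, Nat.ordProj_dvd _ _, ?_⟩
    exact Nat.pow_succ_factorization_not_dvd hq1 hp
  let C : Ctx M q p :=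
    { hp := hp, hp5 := hp5, hq := hq, hq2 := hq2, hqp := hqp, hqM := hqM, hpM := hpM, hMsq := hMsq
      A := A, hA := hA, W := W, hΔ := hΔ, hirr := hirr, S := S, hpS := hpS, hqS := hqS, hMS := hMS
      hWS := hWS, hSep := hSep
      hnE := exists_nonEis hp hp2 (M * q) W hΔ hirr S hpS hNS hWS
      w := w, hw := hw, Sg := Sg, hSg := hSg, Ph := Ph, hPh := hPh, hPh1 := hPh1, ε := ε, hε := hε
      e := e, he := he, he' := he' }
  apply hfalse
  intro κ g hκ P hP hκP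
  exact dprime_of_ctx C (hX C).1 (hX C).2 (hT C) U.toAddSubgroup (fun y hy => hUX hy) hUG hUw
    (fun y hy => hUI Sg hSgI y hy) κ g hκ P hP hκP

end Fermat.Agent.S43.Fin
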