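import Fermat.Agent.S43.Defs
import Fermat.Agent.S43.Tame.Gen
import Fermat.Agent.S43.CH.Cyc
import Fermat.Agent.S30.KumTower
import Fermat.Agent.SS.Formal.AL

/-!
# S43 / Fin / Defs : THE INTERFACE between the three blocks  (coordinator: helper45)

`Core M q p  ⟸  lemmaD (Fin/D.lean)  +  XBlock M q p (dir S43/I)  +  TBlock M q p (dir S43/T)`      (glue: `Fin/Main.lean`)

* `Vth N m S a`     : the generalized eigenspace of the `T_ℓ`, `ℓ ∉ S`, in `Kum N m` (eigenvalues `a ℓ`);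
* `Ctx M q p`       : all the data: `A ∣ q`, the curve, `S`, `Sep` at the proper divisors, the Atkin-Lehner involution `w`,
                      a tame generator `Sg` of the inertia group, a Frobenius `Ph`, a sign `ε`, `p ^ e ∥ q - 1`;
* `C.Jc`            : `{y ∈ Vth (M q) (p ^ (e+1)) | w y = - ε y}`;
* `XBlock`          : (LOC) `(Φ - ε)(Φ - ε q) = 0` on `Jc`;  (GA) an inertia invariant `P ∈ Jc[p]` is `p ^ e • P'`, `P' ∈ Jc`,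
                      `Σ P' = P'`, `Φ P' = ε q P'`;
* `TBlock`          : (TR) `β` on `Jc[p ^ e]`, additive, Galois equivariant, `(Φ - ε) z = β ((Σ - 1) z)`.
-/

set_option autoImplicit false

open AlgebraicCurve ModularCurve

namespace Fermat.Agent.S43.Fin

open Fermat.Agent.ES Fermat.Agent.SS Fermat.Agent.S33 Fermat.Agent.S58

noncomputable section

/-- `T_ℓ - a ℓ` on `Kum N m`. -/
def hk (N m : ℕ) [NeZero N] (a : ℕ → ℤ) (ℓ : ℕ) [NeZero ℓ] (hℓ : ℓ.Prime) (hℓN : ¬ ℓ ∣ N) :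
    Kum N m →+ Kum N m :=
  heckeKum N ℓ hℓ hℓN m - a ℓ • AddMonoidHom.id (Kum N m)

theorem hk_apply (N m : ℕ) [NeZero N] (a : ℕ → ℤ) (ℓ : ℕ) [NeZero ℓ] (hℓ : ℓ.Prime)
    (hℓN : ¬ ℓ ∣ N) (x : Kum N m) : hk N m a ℓ hℓ hℓN x = heckeKum N ℓ hℓ hℓN m x - a ℓ • x := rfl

/-- the generalized eigenspace of the `T_ℓ`, `ℓ ∉ S`, with eigenvalues `a ℓ`. -/
def Vth (N m : ℕ) [NeZero N] (S : Finset ℕ) (a : ℕ → ℤ) : AddSubgroup (Kum N m) where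
  carrier := {x | ∀ (ℓ : ℕ) [NeZero ℓ] (hℓ : ℓ.Prime) (hℓN : ¬ ℓ ∣ N), ℓ ∉ S →
    ∃ n : ℕ, (hk N m a ℓ hℓ hℓN)^[n] x = 0}
  add_mem' := by
    intro x y hx hy ℓ _ hℓ hℓN hS
    obtain ⟨n, hn⟩ := hx ℓ hℓ hℓN hS
    obtain ⟨n', hn'⟩ := hy ℓ hℓ hℓN hS
    refine ⟨n + n', ?_⟩
    have h1 : (hk N m a ℓ hℓ hℓN)^[n + n'] y = 0 := by
      rw [Function.iterate_add_apply, hn', iterate_map_zero]
    have h2 : (hk N m a ℓ hℓ hℓN)^[n + n'] x = 0 := by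
      rw [add_comm, Function.iterate_add_apply, hn, iterate_map_zero]
    rw [iterate_map_add, h1, h2, add_zero]
  zero_mem' := fun ℓ _ hℓ hℓN _ => ⟨0, rfl⟩
  neg_mem' := by
    intro x hx ℓ _ hℓ hℓN hS
    obtain ⟨n, hn⟩ := hx ℓ hℓ hℓN hS
    exact ⟨n, by rw [iterate_map_neg, hn, neg_zero]⟩

theorem mem_Vth {N m : ℕ} [NeZero N] {S : Finset ℕ} {a : ℕ → ℤ} {x : Kum N m} :
    x ∈ Vth N m S a ↔ ∀ (ℓ : ℕ) [NeZero ℓ] (hℓ : ℓ.Prime) (hℓN : ¬ ℓ ∣ N), ℓ ∉ S →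
      ∃ n : ℕ, (hk N m a ℓ hℓ hℓN)^[n] x = 0 := Iff.rfl

/-- all the data. -/
structure Ctx (M q p : ℕ) [NeZero M] [NeZero q] where
  hp : p.Prime
  hp5 : 5 ≤ p
  hq : q.Prime
  hq2 : q ≠ 2
  hqp : q ≠ p
  hqM : ¬ q ∣ M
  hpM : ¬ p ∣ M
  hMsq : Squarefree M
  A : ValuationSubring Qb
  hA : A.LiesOverPrime q
  W : WeierstrassCurve ℤ
  hΔ : W.Δ ≠ 0
  hirr : WeierstrassCurve.Affine.Point.GaloisRepIsIrreducible (K := Qb) ℚ (EQ W) p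
  S : Finset ℕ
  hpS : p ∈ S
  hqS : q ∈ S
  hMS : ∀ r : ℕ, r.Prime → r ∣ M → r ∈ S
  hWS : ∀ r : ℕ, r.Prime → (r : ℤ) ∣ W.Δ → r ∈ S
  hSep : ∀ (D : ℕ) [NeZero D] (hDS : ∀ r : ℕ, r.Prime → r ∣ D → r ∈ S), D ∣ M * q → D ≠ M * q →
    Sep D p S hDS (fun ℓ => W.apOfModel ℓ)
  /-- non Eisenstein (a consequence of `hirr`; supplied by the glue) -/
  hnE : ∃ ℓ : ℕ, ℓ.Prime ∧ ℓ ∉ S ∧ ¬ (p : ℤ) ∣ W.apOfModel ℓ - ℓ - 1
  w : FF (M * q) →ₐ[Qb] FF (M * q)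
  hw : IsAL M q w
  /-- a tame generator -/
  Sg : GQ
  hSg : Tame.IsGenOn p (A.inertiaSubgroupIn ℚ) Sg
  /-- a Frobenius -/
  Ph : GQ
  hPh : A.IsFrobeniusAt Ph q
  /-- normalisation of the Frobenius: trivial on `μ_q` (request of the tower block) -/
  hPh1 : CH.cyc q Ph = 1
  ε : ℤ
  hε : ε = 1 ∨ ε = -1
  /-- `p ^ e ∥ q - 1` -/
  e : ℕ
  he : p ^ e ∣ q - 1
  he' : ¬ p ^ (e + 1) ∣ q - 1

namespace Ctx

variable {M q p : ℕ} [NeZero M] [NeZero q] (C : Ctx M q p)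

/-- the eigenvalues. -/
def a : ℕ → ℤ := fun ℓ => C.W.apOfModel ℓ

/-- `V_k^{w = -ε}`: the `θ`-part of `Kum (M q) (p ^ k)` on which `w = - ε` (i.e. `U_q = ε`). -/
def J (k : ℕ) : AddSubgroup (Kum (M * q) (p ^ k)) :=
  Vth (M * q) (p ^ k) C.S C.a ⊓
    (wKum C.hw C.hq (p ^ k) + C.ε • AddMonoidHom.id (Kum (M * q) (p ^ k))).ker

theorem mem_J {k : ℕ} {y : Kum (M * q) (p ^ k)} :
    y ∈ C.J k ↔ y ∈ Vth (M * q) (p ^ k) C.S C.a ∧ wKum C.hw C.hq (p ^ k) y = -(C.ε • y) := by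
  unfold J
  rw [AddSubgroup.mem_inf, AddMonoidHom.mem_ker]
  refine and_congr_right fun _ => ?_
  rw [AddMonoidHom.add_apply, AddMonoidHom.smul_apply, AddMonoidHom.id_apply,
    add_eq_zero_iff_eq_neg]

/-- `Jc = J (e + 1)`. -/
def Jc : AddSubgroup (Kum (M * q) (p ^ (C.e + 1))) := C.J (C.e + 1)

/-- the Galois action at exponent `p ^ (e + 1)`. -/
abbrev g (s : GQ) : Kum (M * q) (p ^ (C.e + 1)) →+ Kum (M * q) (p ^ (C.e + 1)) :=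
  galKum (M * q) (p ^ (C.e + 1)) s

/-- (LOC) -/
def LOC : Prop :=
  ∀ y ∈ C.Jc, C.g C.Ph (C.g C.Ph y) - (C.ε * ((q : ℤ) + 1)) • C.g C.Ph y + (q : ℤ) • y = 0

/-- (GA) -/
def GA : Prop :=
  ∀ P ∈ C.Jc, p • P = 0 → C.g C.Sg P = P →
    ∃ P' ∈ C.Jc, p ^ C.e • P' = P ∧ C.g C.Sg P' = P' ∧ C.g C.Ph P' = (C.ε * (q : ℤ)) • P'

/-- (TR) -/
def TR : Prop :=
  ∃ β : Kum (M * q) (p ^ (C.e + 1)) → Kum (M * q) (p ^ (C.e + 1)),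
    (∀ x ∈ C.Jc, ∀ y ∈ C.Jc, p ^ C.e • x = 0 → p ^ C.e • y = 0 → β (x + y) = β x + β y) ∧
    (∀ s : GQ, ∀ x ∈ C.Jc, p ^ C.e • x = 0 → β (C.g s x) = C.g s (β x)) ∧
    (∀ z ∈ C.Jc, p ^ C.e • z = 0 → C.g C.Ph z - C.ε • z = β (C.g C.Sg z - z))

end Ctx

/-- **XBlock** (level `X₀(M q)`; assembler helper10, dir `S43/I`). -/
def XBlock (M q p : ℕ) [NeZero M] [NeZero q] : Prop := ∀ C : Ctx M q p, C.LOC ∧ C.GA

/-- **TBlock** (the tower; assembler helper52, dir `S43/T`); only for `p ∣ q - 1`. -/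
def TBlock (M q p : ℕ) [NeZero M] [NeZero q] : Prop := ∀ C : Ctx M q p, 1 ≤ C.e → C.TR

end

end Fermat.Agent.S43.Fin
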