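import Fermat.Agent.S43.Fin.Defs

/-!
# S43 / Fin / Pow2 : (L3) the maps `S30.powMap`, `S30.trans` between the `Kum N m` are equivariant      (helper89)

`powMap k h : Kum N m → Kum N m'` (`m' = m * k`, `mk f ↦ mk (f ^ k)`), `trans h : Kum N m' → Kum N m` (`m ∣ m'`, `mk f ↦ mk f`).

* `powMap_kumMap`, `powMap_galKum`, `powMap_heckeKum`, `powMap_wKum`, `powMap_hk`, `powMap_hk_iterate`;
* `trans_galKum`, `trans_heckeKum`, `trans_wKum`, `trans_hk`;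
* `exists_powMap_of_nsmul` : `x : Kum N (m * k)`, `m • x = 0` ⟹ `x ∈ range powMap`;   `nsmul_powMap` : `m • powMap k h x = 0`;
* `powMap_mem_Vth_iff`, `trans_mem_Vth`;
* for `C : Ctx M q p` : `C.pw k j : Kum (M q) (p ^ k) →+ Kum (M q) (p ^ (k + j))`, `pw_mem_J_iff`, `exists_pw_of_mem_J`
  (`y ∈ J (k + j)`, `p ^ k • y = 0` ⟹ `y = pw z`, `z ∈ J k`), `pw_injective`, `pw_gal`.
-/

set_option autoImplicit false

open AlgebraicCurve ModularCurve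

namespace Fermat.Agent.S43.Fin

open Fermat.Agent.ES Fermat.Agent.SS Fermat.Agent.S33 Fermat.Agent.S58 Fermat.Agent.S30

noncomputable section

section General

variable {N : ℕ} {m m' : ℕ}

/-- `powMap` commutes with every `Kum.map`. -/
theorem powMap_map (k : ℕ) (h : m' = m * k) (φ : (FF N)ˣ →* (FF N)ˣ)
    (hD : ∀ f ∈ Dm N m, φ f ∈ Dm N m) (hD' : ∀ f ∈ Dm N m', φ f ∈ Dm N m') (x : Kum N m) :
    powMap k h (Kum.map φ hD x) = Kum.map φ hD' (powMap k h x) := by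
  obtain ⟨f, rfl⟩ := Kum.mk_surjective x
  rw [Kum.map_mk, powMap_mk, powMap_mk, Kum.map_mk]
  refine congrArg Kum.mk (Subtype.ext ?_)
  rw [coe_powD]
  change φ f ^ k = φ ((powD k h f : Dm N m') : (FF N)ˣ)
  rw [coe_powD, map_pow]

theorem powMap_galKum (k : ℕ) (h : m' = m * k) (σ : GQ) (x : Kum N m) :
    powMap k h (galKum N m σ x) = galKum N m' σ (powMap k h x) :=
  powMap_map k h _ _ _ x

theorem powMap_heckeKum [NeZero N] (k : ℕ) (h : m' = m * k) (ℓ : ℕ) [NeZero ℓ] (hℓ : ℓ.Prime)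
    (hℓN : ¬ ℓ ∣ N) (x : Kum N m) :
    powMap k h (heckeKum N ℓ hℓ hℓN m x) = heckeKum N ℓ hℓ hℓN m' (powMap k h x) :=
  powMap_map k h _ _ _ x

theorem powMap_hk [NeZero N] (k : ℕ) (h : m' = m * k) (a : ℕ → ℤ) (ℓ : ℕ) [NeZero ℓ]
    (hℓ : ℓ.Prime) (hℓN : ¬ ℓ ∣ N) (x : Kum N m) :
    powMap k h (hk N m a ℓ hℓ hℓN x) = hk N m' a ℓ hℓ hℓN (powMap k h x) := by
  rw [hk_apply, hk_apply, map_sub, map_zsmul, powMap_heckeKum]

theorem powMap_hk_iterate [NeZero N] (k : ℕ) (h : m' = m * k) (a : ℕ → ℤ) (ℓ : ℕ) [NeZero ℓ]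
    (hℓ : ℓ.Prime) (hℓN : ¬ ℓ ∣ N) (n : ℕ) (x : Kum N m) :
    powMap k h ((hk N m a ℓ hℓ hℓN)^[n] x) = (hk N m' a ℓ hℓ hℓN)^[n] (powMap k h x) := by
  induction n generalizing x with
  | zero => rfl
  | succ n ih => rw [Function.iterate_succ_apply, Function.iterate_succ_apply, ih, powMap_hk]

theorem trans_galKum (h : m ∣ m') (σ : GQ) (x : Kum N m') :
    trans h (galKum N m' σ x) = galKum N m σ (trans h x) :=
  trans_map h _ _ _ x

theorem trans_heckeKum [NeZero N] (h : m ∣ m') (ℓ : ℕ) [NeZero ℓ] (hℓ : ℓ.Prime)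
    (hℓN : ¬ ℓ ∣ N) (x : Kum N m') :
    trans h (heckeKum N ℓ hℓ hℓN m' x) = heckeKum N ℓ hℓ hℓN m (trans h x) :=
  trans_map h _ _ _ x

theorem trans_hk [NeZero N] (h : m ∣ m') (a : ℕ → ℤ) (ℓ : ℕ) [NeZero ℓ]
    (hℓ : ℓ.Prime) (hℓN : ¬ ℓ ∣ N) (x : Kum N m') :
    trans h (hk N m' a ℓ hℓ hℓN x) = hk N m a ℓ hℓ hℓN (trans h x) := by
  rw [hk_apply, hk_apply, map_sub, map_zsmul, trans_heckeKum]

theorem trans_hk_iterate [NeZero N] (h : m ∣ m') (a : ℕ → ℤ) (ℓ : ℕ) [NeZero ℓ]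
    (hℓ : ℓ.Prime) (hℓN : ¬ ℓ ∣ N) (n : ℕ) (x : Kum N m') :
    trans h ((hk N m' a ℓ hℓ hℓN)^[n] x) = (hk N m a ℓ hℓ hℓN)^[n] (trans h x) := by
  induction n generalizing x with
  | zero => rfl
  | succ n ih => rw [Function.iterate_succ_apply, Function.iterate_succ_apply, ih, trans_hk]

/-- the image of `powMap` is killed by `m`. -/
theorem nsmul_powMap (k : ℕ) (h : m' = m * k) (x : Kum N m) : m • powMap k h x = 0 := by
  rw [← map_nsmul, Kum.nsmul_eq_zero, map_zero]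

/-- **the `m`-torsion of `Kum N (m * k)` is the image of `powMap`.** -/
theorem exists_powMap_of_nsmul (k : ℕ) (h : m' = m * k) (hk : k ≠ 0) (hm : m ≠ 0) (y : Kum N m')
    (hy : m • y = 0) : ∃ z : Kum N m, powMap k h z = y := by
  have hd : k ∣ m' := ⟨m, by rw [h, mul_comm]⟩
  refine exists_powMap_eq h hk rfl hd y ?_
  obtain ⟨f, rfl⟩ := Kum.mk_surjective y
  rw [← Kum.mk_pow, Kum.mk_eq_zero_iff] at hy
  obtain ⟨g, hg⟩ := hy
  have hg' : g ^ m' = (f : (FF N)ˣ) ^ m := hg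
  obtain ⟨ξ, hξ⟩ := exists_pow_eq_of_pow_eq_one hm hk ((f : (FF N)ˣ) * (g ^ k)⁻¹) (by
    rw [mul_pow, inv_pow, ← pow_mul, mul_comm k m, ← h, hg', mul_inv_cancel])
  rw [trans_mk, Kum.mk_eq_zero_iff]
  exact ⟨ξ * g, by rw [mul_pow, hξ, inv_mul_cancel_right, coe_incl]⟩

theorem powMap_mem_Vth_iff [NeZero N] (k : ℕ) (h : m' = m * k) (hk : k ≠ 0) (hm : m ≠ 0)
    (S : Finset ℕ) (a : ℕ → ℤ) (x : Kum N m) :
    powMap k h x ∈ Vth N m' S a ↔ x ∈ Vth N m S a := by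
  rw [mem_Vth, mem_Vth]
  refine forall_congr' fun ℓ => forall_congr' fun _ => forall_congr' fun hℓ =>
    forall_congr' fun hℓN => forall_congr' fun _ => exists_congr fun n => ?_
  rw [← powMap_hk_iterate, map_eq_zero_iff _ (powMap_injective k h hk hm)]

theorem trans_mem_Vth [NeZero N] (h : m ∣ m') (S : Finset ℕ) (a : ℕ → ℤ) {x : Kum N m'}
    (hx : x ∈ Vth N m' S a) : trans h x ∈ Vth N m S a := by
  intro ℓ _ hℓ hℓN hS
  obtain ⟨n, hn⟩ := hx ℓ hℓ hℓN hS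
  exact ⟨n, by rw [← trans_hk_iterate, hn, map_zero]⟩

end General

section AL

variable {M q : ℕ} [NeZero M] [NeZero q] {w : FF (M * q) →ₐ[Qb] FF (M * q)} {m m' : ℕ}

theorem powMap_wKum (hw : IsAL M q w) (hq : q.Prime) (k : ℕ) (h : m' = m * k)
    (x : Kum (M * q) m) :
    powMap k h (wKum hw hq m x) = wKum hw hq m' (powMap k h x) := by
  obtain ⟨f, rfl⟩ := Kum.mk_surjective x
  rw [wKum_mk, powMap_mk, powMap_mk, wKum_mk]
  refine congrArg Kum.mk (Subtype.ext ?_)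
  rw [coe_powD]
  change wU w f ^ k = wU w ((powD k h f : Dm (M * q) m') : (FF (M * q))ˣ)
  rw [coe_powD, map_pow]

theorem trans_wKum (hw : IsAL M q w) (hq : q.Prime) (h : m ∣ m') (x : Kum (M * q) m') :
    trans h (wKum hw hq m' x) = wKum hw hq m (trans h x) := by
  obtain ⟨f, rfl⟩ := Kum.mk_surjective x
  rfl

end AL

namespace Ctx

variable {M q p : ℕ} [NeZero M] [NeZero q] (C : Ctx M q p)

/-- `Kum (M q) (p ^ k) → Kum (M q) (p ^ (k + j))`, `mk f ↦ mk (f ^ (p ^ j))`:  the inclusion `J[p ^ k] ⊆ J[p ^ (k + j)]`. -/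
def pw (_C : Ctx M q p) (k j : ℕ) : Kum (M * q) (p ^ k) →+ Kum (M * q) (p ^ (k + j)) :=
  powMap (p ^ j) (pow_add p k j)

theorem pw_injective (k j : ℕ) : Function.Injective (C.pw k j) :=
  powMap_injective _ _ (pow_ne_zero _ C.hp.ne_zero) (pow_ne_zero _ C.hp.ne_zero)

theorem pw_gal (k j : ℕ) (s : GQ) (x : Kum (M * q) (p ^ k)) :
    C.pw k j (galKum (M * q) (p ^ k) s x) = galKum (M * q) (p ^ (k + j)) s (C.pw k j x) :=
  powMap_galKum _ _ s x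

theorem pw_hecke (k j : ℕ) (ℓ : ℕ) [NeZero ℓ] (hℓ : ℓ.Prime) (hℓN : ¬ ℓ ∣ M * q)
    (x : Kum (M * q) (p ^ k)) :
    C.pw k j (heckeKum (M * q) ℓ hℓ hℓN (p ^ k) x)
      = heckeKum (M * q) ℓ hℓ hℓN (p ^ (k + j)) (C.pw k j x) :=
  powMap_heckeKum _ _ ℓ hℓ hℓN x

theorem pw_w (k j : ℕ) (x : Kum (M * q) (p ^ k)) :
    C.pw k j (wKum C.hw C.hq (p ^ k) x) = wKum C.hw C.hq (p ^ (k + j)) (C.pw k j x) :=
  powMap_wKum C.hw C.hq _ _ x

theorem nsmul_pw (k j : ℕ) (x : Kum (M * q) (p ^ k)) : p ^ k • C.pw k j x = 0 :=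
  nsmul_powMap _ _ x

theorem pw_mem_J_iff (k j : ℕ) (x : Kum (M * q) (p ^ k)) :
    C.pw k j x ∈ C.J (k + j) ↔ x ∈ C.J k := by
  rw [mem_J, mem_J, ← pw_w, ← map_zsmul, ← map_neg, (C.pw_injective k j).eq_iff]
  exact and_congr_left fun _ => powMap_mem_Vth_iff _ _ (pow_ne_zero _ C.hp.ne_zero)
    (pow_ne_zero _ C.hp.ne_zero) _ _ x

/-- `J (k + j) [p ^ k] = pw (J k)`. -/
theorem exists_pw_of_mem_J (k j : ℕ) {y : Kum (M * q) (p ^ (k + j))} (hy : y ∈ C.J (k + j))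
    (h0 : p ^ k • y = 0) : ∃ z ∈ C.J k, C.pw k j z = y := by
  obtain ⟨z, rfl⟩ := exists_powMap_of_nsmul (p ^ j) (pow_add p k j) (pow_ne_zero _ C.hp.ne_zero)
    (pow_ne_zero _ C.hp.ne_zero) y h0
  exact ⟨z, (C.pw_mem_J_iff k j z).1 hy, rfl⟩

/-- reduction `Kum (M q) (p ^ (k + j)) → Kum (M q) (p ^ k)`, `mk f ↦ mk f`: multiplication by `p ^ j`, `J[p ^ (k+j)] → J[p ^ k]`. -/
def rd (_C : Ctx M q p) (k j : ℕ) : Kum (M * q) (p ^ (k + j)) →+ Kum (M * q) (p ^ k) :=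
  trans (pow_dvd_pow p (Nat.le_add_right k j))

theorem pw_rd (k j : ℕ) (y : Kum (M * q) (p ^ (k + j))) : C.pw k j (C.rd k j y) = p ^ j • y :=
  powMap_trans _ _ _ y

theorem rd_pw (k j : ℕ) (x : Kum (M * q) (p ^ k)) : C.rd k j (C.pw k j x) = p ^ j • x :=
  trans_powMap _ _ _ x

theorem rd_gal (k j : ℕ) (s : GQ) (y : Kum (M * q) (p ^ (k + j))) :
    C.rd k j (galKum (M * q) (p ^ (k + j)) s y) = galKum (M * q) (p ^ k) s (C.rd k j y) :=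
  trans_galKum _ s y

theorem rd_w (k j : ℕ) (y : Kum (M * q) (p ^ (k + j))) :
    C.rd k j (wKum C.hw C.hq (p ^ (k + j)) y) = wKum C.hw C.hq (p ^ k) (C.rd k j y) :=
  trans_wKum C.hw C.hq _ y

theorem rd_mem_J (k j : ℕ) {y : Kum (M * q) (p ^ (k + j))} (hy : y ∈ C.J (k + j)) :
    C.rd k j y ∈ C.J k := by
  rw [mem_J] at hy ⊢
  exact ⟨trans_mem_Vth _ _ _ hy.1, by rw [← rd_w, hy.2, map_neg, map_zsmul]⟩

end Ctx

end

end Fermat.Agent.S43.Fin
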