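import Fermat.Agent.S43.Fin.Pow
import Fermat.Agent.S43.Fin.Pow2
import Fermat.Agent.S43.Th.Kum
import Fermat.Agent.S44.Soft.Approx

/-!
# S43 / Fin / Sign : only ONE sign of `w` occurs in the `θ`-part      (helper74)

`C : Ctx M q p`, `C.flip` = the same data with `ε := - ε`.  If `p ∤ q + 1` (true as soon as `1 ≤ C.e`) and (LOC) holds for both signs
(`XBlock`), then a nonzero element in ONE `C.J k` forces `C.flip.J k' = ⊥` and `Vth (M q) (p ^ k') C.S C.a = C.J k'` for ALL `k'`.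

Reason: a nonzero `J(ε)` contains an eigenvector `z ∈ XX (M q) p S a` with `w z = - ε z`; (LOC) gives
`Φ² z - ε (q + 1) Φ z + q z = 0`, whereas `Φ + q Φ⁻¹` is ONE scalar `t` on the whole of `XX` (`exists_approx`); so `t = ε (q + 1)`.

* `Ctx.flip`, `Ctx.exists_XX`, `Ctx.trace_eq`;
* `Ctx.flip_J_eq_bot`, `Ctx.Vth_eq_J`;
* `Ctx.not_dvd_succ`, `Ctx.TR_of_Jc_eq_bot`, `Ctx.TR_of_Vth_eq` (the form for the tower block: WLOG `Vth = J k` for all `k`).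
-/

set_option autoImplicit false

open AlgebraicCurve ModularCurve

namespace Fermat.Agent.S43.Fin

open Fermat.Agent.ES Fermat.Agent.SS Fermat.Agent.S30 Fermat.Agent.S44.Soft

noncomputable section

/-- `Fin.Vth` is contained in (in fact equal to) `Th.Vθ`. -/
theorem Vth_le_Vθ {N m : ℕ} [NeZero N] {S : Finset ℕ}
    (hNS : ∀ r : ℕ, r.Prime → r ∣ N → r ∈ S) (a : ℕ → ℤ) :
    Vth N m S a ≤ Th.Vθ N m S hNS a := by
  intro x hx i
  have : NeZero i.1 := ⟨i.2.1.ne_zero⟩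
  have hiN : ¬ i.1 ∣ N := (i.good hNS).2.2
  obtain ⟨n, hn⟩ := hx i.1 i.2.1 hiN i.2.2
  refine ⟨n, ?_⟩
  rw [Module.End.pow_apply]
  have h : (⇑(Th.dd (Th.TT N m S hNS) (fun ℓ => a ℓ.1) i) : Kum N m → Kum N m)
      = ⇑(hk N m a i.1 i.2.1 hiN) := by
    funext y
    rw [Th.dd_apply, hk_apply]
    rfl
  rw [h]
  exact hn

/-- `T_ℓ` preserves `Vth`. -/
theorem heckeKum_mem_Vth {N m : ℕ} [NeZero N] {S : Finset ℕ} {a : ℕ → ℤ}
    (ℓ : ℕ) [NeZero ℓ] (hℓ : ℓ.Prime) (hℓN : ¬ ℓ ∣ N) {x : Kum N m} (hx : x ∈ Vth N m S a) :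
    heckeKum N ℓ hℓ hℓN m x ∈ Vth N m S a := by
  intro r _ hr hrN hS
  obtain ⟨n, hn⟩ := hx r hr hrN hS
  refine ⟨n, ?_⟩
  have hcomm : Function.Semiconj (heckeKum N ℓ hℓ hℓN m) (hk N m a r hr hrN)
      (hk N m a r hr hrN) := by
    intro y
    rw [hk_apply, hk_apply, map_sub, map_zsmul, heckeKum_comm]
  rw [← (hcomm.iterate_right n).eq, hn, map_zero]

/-- `w` commutes with `T_ℓ`, `ℓ ∤ m`. -/
theorem wKum_heckeKum {M q : ℕ} [NeZero M] [NeZero q] {w : FF (M * q) →ₐ[Qb] FF (M * q)}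
    (hw : IsAL M q w) (hq : q.Prime) {m : ℕ} (hm : m ≠ 0)
    (ℓ : ℕ) [NeZero ℓ] (hℓ : ℓ.Prime) (hℓN : ¬ ℓ ∣ M * q) (hℓm : ¬ ℓ ∣ m) (x : Kum (M * q) m) :
    heckeKum (M * q) ℓ hℓ hℓN m (wKum hw hq m x) = wKum hw hq m (heckeKum (M * q) ℓ hℓ hℓN m x) :=
  heckeKum_comm_of_gal hm hm (wKum hw hq m) (fun σ y => galKum_wKum hw hq σ y) ℓ hℓ hℓN hℓm hℓm x

/-- `w` preserves `Vth` at exponent `p ^ k`, `p ∈ S`. -/
theorem wKum_mem_Vth {M q p : ℕ} [NeZero M] [NeZero q] {w : FF (M * q) →ₐ[Qb] FF (M * q)}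
    (hw : IsAL M q w) (hq : q.Prime) (hp : p.Prime) {S : Finset ℕ} (hpS : p ∈ S) {a : ℕ → ℤ}
    {k : ℕ} {x : Kum (M * q) (p ^ k)} (hx : x ∈ Vth (M * q) (p ^ k) S a) :
    wKum hw hq (p ^ k) x ∈ Vth (M * q) (p ^ k) S a := by
  intro r _ hr hrN hS
  obtain ⟨n, hn⟩ := hx r hr hrN hS
  refine ⟨n, ?_⟩
  have hrp : ¬ r ∣ p ^ k := fun h =>
    hS (((Nat.prime_dvd_prime_iff_eq hr hp).1 (hr.dvd_of_dvd_pow h)) ▸ hpS)
  have hcomm : Function.Semiconj (wKum hw hq (p ^ k)) (hk (M * q) (p ^ k) a r hr hrN)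
      (hk (M * q) (p ^ k) a r hr hrN) := by
    intro y
    rw [hk_apply, hk_apply, map_sub, map_zsmul,
      wKum_heckeKum hw hq (pow_ne_zero _ hp.ne_zero) r hr hrN hrp]
  rw [← (hcomm.iterate_right n).eq, hn, map_zero]

/-- an honest eigenvector lies in `Vth`. -/
theorem mem_Vth_of_XX {N p : ℕ} [NeZero N] {S : Finset ℕ} {a : ℕ → ℤ} {x : Kum N p}
    (hx : x ∈ XX N p S a) : x ∈ Vth N p S a := by
  intro ℓ _ hℓ hℓN hS
  refine ⟨1, ?_⟩
  rw [Function.iterate_one, hk_apply, (mem_XX.1 hx) ℓ hℓ hℓN hS, sub_self]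

namespace Ctx

variable {M q p : ℕ} [NeZero M] [NeZero q] (C : Ctx M q p)

/-- the same data with the opposite sign. -/
def flip : Ctx M q p :=
  { C with
    ε := -C.ε
    hε := by
      rcases C.hε with h | h
      · right; rw [h]
      · left; rw [h, neg_neg] }

theorem hNS : ∀ r : ℕ, r.Prime → r ∣ M * q → r ∈ C.S := by
  intro r hr h
  rcases (Nat.Prime.dvd_mul hr).1 h with h | h
  · exact C.hMS r hr h
  · rw [(Nat.prime_dvd_prime_iff_eq hr C.hq).1 h]; exact C.hqS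

theorem eps_mul_self : C.ε * C.ε = 1 := by
  rcases C.hε with h | h <;> rw [h] <;> norm_num

/-- a nonzero `J k` contains (the image of) an honest eigenvector of exponent `p` with `w = - ε`. -/
theorem exists_XX {k : ℕ} {x : Kum (M * q) (p ^ k)} (hx : x ∈ C.J k) (hx0 : x ≠ 0) :
    ∃ z : Kum (M * q) p, z ≠ 0 ∧ z ∈ XX (M * q) p C.S C.a ∧
      wKum C.hw C.hq p z = -(C.ε • z) := by
  have hp := C.hp
  have hU : C.J k ≠ ⊥ := by
    intro h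
    rw [h] at hx
    exact hx0 hx
  obtain ⟨y, hyU, hy0, hpy, hy⟩ := Th.exists_eigen_kum (hNS := C.hNS) (a := C.a) hp (C.J k) hU
    (fun ℓ _ hℓ hℓN hℓS y hy => by
      rw [C.mem_J] at hy ⊢
      have hℓp : ¬ ℓ ∣ p ^ k := fun h =>
        hℓS (((Nat.prime_dvd_prime_iff_eq hℓ hp).1 (hℓ.dvd_of_dvd_pow h)) ▸ C.hpS)
      refine ⟨heckeKum_mem_Vth ℓ hℓ hℓN hy.1, ?_⟩
      rw [← wKum_heckeKum C.hw C.hq (pow_ne_zero _ hp.ne_zero) ℓ hℓ hℓN hℓp, hy.2, map_neg,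
        map_zsmul])
    (fun y hy => Vth_le_Vθ C.hNS C.a ((C.mem_J.1 hy).1))
  have hk : k ≠ 0 := by
    rintro rfl
    apply hy0
    exact (one_smul ℕ y).symm.trans (Kum.nsmul_eq_zero y)
  obtain ⟨j, rfl⟩ := Nat.exists_eq_succ_of_ne_zero hk
  have hj : p ^ j ≠ 0 := pow_ne_zero _ hp.ne_zero
  have hinj := powMap_injective (N := M * q) (p ^ j) (pow_succ' p j) hj hp.ne_zero
  obtain ⟨z, rfl⟩ := exists_powMap_of_nsmul (p ^ j) (pow_succ' p j) hj hp.ne_zero y hpy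
  refine ⟨z, fun h => hy0 (by rw [h, map_zero]), ?_, ?_⟩
  · rw [mem_XX]
    intro ℓ _ hℓ hℓN hℓS
    apply hinj
    rw [powMap_heckeKum, hy ℓ hℓ hℓN hℓS, map_zsmul]
  · apply hinj
    rw [powMap_wKum, (C.mem_J.1 hyU).2, map_neg, map_zsmul]

/-- (LOC) computes the trace of the Frobenius on `XX`. -/
theorem trace_eq [Fact p.Prime] (hL : C.LOC) {z : Kum (M * q) p} (hz0 : z ≠ 0)
    (hz : z ∈ XX (M * q) p C.S C.a) (hwz : wKum C.hw C.hq p z = -(C.ε • z)) (t : ZMod p)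
    (ht : ∀ x ∈ XX (M * q) p C.S C.a,
      galRep (M * q) p C.Ph x + ((om p C.Ph : (ZMod p)ˣ) : ZMod p) • galRep (M * q) p C.Ph⁻¹ x
        = t • x) :
    t = ((C.ε * ((q : ℤ) + 1) : ℤ) : ZMod p) := by
  have hp := C.hp
  have he : p ^ C.e ≠ 0 := pow_ne_zero _ hp.ne_zero
  have hinj := powMap_injective (N := M * q) (p ^ C.e) (pow_succ' p C.e) he hp.ne_zero
  have hy : powMap (p ^ C.e) (pow_succ' p C.e) z ∈ C.Jc := by
    unfold Jc
    rw [C.mem_J]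
    refine ⟨(powMap_mem_Vth_iff _ _ he hp.ne_zero _ _ z).2 (mem_Vth_of_XX hz), ?_⟩
    rw [← powMap_wKum, hwz, map_neg, map_zsmul]
  have h1 : galKum (M * q) p C.Ph (galKum (M * q) p C.Ph z)
      - (C.ε * ((q : ℤ) + 1)) • galKum (M * q) p C.Ph z + (q : ℤ) • z = 0 := by
    apply hinj
    rw [map_zero, map_add, map_sub, map_zsmul, map_zsmul, ← galKum_powMap, ← galKum_powMap]
    exact hL _ hy
  have h2 := ht _ (stable_XX (M * q) p C.S C.a C.Ph z hz)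
  have h3 : galRep (M * q) p C.Ph⁻¹ (galRep (M * q) p C.Ph z) = z := by
    rw [← Module.End.mul_apply, ← map_mul, inv_mul_cancel, map_one, Module.End.one_apply]
  rw [h3, om_frob p C.hq C.hqp C.A C.hA C.Ph C.hPh, galRep_apply, galRep_apply] at h2
  have hΦ0 : galKum (M * q) p C.Ph z ≠ 0 := by
    intro h
    apply hz0
    rw [← h3, galRep_apply C.Ph z, h, map_zero]
  rw [← intCast_zmod_smul (p := p), ← intCast_zmod_smul (p := p)] at h1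
  have h4 : (t - ((C.ε * ((q : ℤ) + 1) : ℤ) : ZMod p)) • galKum (M * q) p C.Ph z = 0 := by
    rw [sub_smul, ← h2, ← h1]
    push_cast
    abel
  rcases smul_eq_zero.1 h4 with h | h
  · exact sub_eq_zero.1 h
  · exact absurd h hΦ0

/-- **only one sign.** -/
theorem flip_J_eq_bot (hX : XBlock M q p) (hpq : ¬ p ∣ q + 1) {k : ℕ} {x : Kum (M * q) (p ^ k)}
    (hx : x ∈ C.J k) (hx0 : x ≠ 0) (k' : ℕ) : C.flip.J k' = ⊥ := by
  have hp := C.hp
  have : Fact p.Prime := ⟨hp⟩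
  have hp2 : p ≠ 2 := by
    have := C.hp5
    omega
  by_contra hne
  obtain ⟨x', hx'⟩ := AddSubgroup.ne_bot_iff_exists_ne_zero.1 hne
  have hx'0 : (x' : Kum (M * q) (p ^ k')) ≠ 0 := fun h => hx' (Subtype.ext h)
  obtain ⟨z, hz0, hz, hwz⟩ := C.exists_XX hx hx0
  obtain ⟨z', hz'0, hz', hwz'⟩ := C.flip.exists_XX x'.2 hx'0
  obtain ⟨ℓ, j, -, -, -, -, ht⟩ := exists_approx hp2 (M * q) C.W C.hΔ C.S C.hpS C.hNS C.hWS C.Ph
  have e1 := C.trace_eq (hX C).1 hz0 hz hwz _ ht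
  have e2 := C.flip.trace_eq (hX C.flip).1 hz'0 hz' hwz' _ ht
  rw [e1] at e2
  have e3 : C.flip.ε = -C.ε := rfl
  rw [e3, ZMod.intCast_eq_intCast_iff_dvd_sub] at e2
  have e4 : (p : ℤ) ∣ 2 * ((q : ℤ) + 1) := by
    have h5 : 2 * ((q : ℤ) + 1)
        = (-C.ε) * (-C.ε * ((q : ℤ) + 1) - C.ε * ((q : ℤ) + 1)) := by
      linear_combination (-2 * ((q : ℤ) + 1)) * C.eps_mul_self
    rw [h5]
    exact Dvd.dvd.mul_left e2 _
  have e5 : p ∣ 2 * (q + 1) := by exact_mod_cast e4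
  rcases (Nat.Prime.dvd_mul hp).1 e5 with h | h
  · exact hp2 ((Nat.prime_dvd_prime_iff_eq hp Nat.prime_two).1 h)
  · exact hpq h

/-- **the `θ`-part is the part `w = - ε`.** -/
theorem Vth_eq_J (hX : XBlock M q p) (hpq : ¬ p ∣ q + 1) {k : ℕ} {x : Kum (M * q) (p ^ k)}
    (hx : x ∈ C.J k) (hx0 : x ≠ 0) (k' : ℕ) : Vth (M * q) (p ^ k') C.S C.a = C.J k' := by
  refine le_antisymm ?_ inf_le_left
  intro y hy
  have hwy := wKum_mem_Vth C.hw C.hq C.hp C.hpS hy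
  have hu : y + C.ε • wKum C.hw C.hq (p ^ k') y ∈ C.flip.J k' := by
    rw [C.flip.mem_J]
    refine ⟨(Vth (M * q) (p ^ k') C.S C.a).add_mem hy
      ((Vth (M * q) (p ^ k') C.S C.a).zsmul_mem hwy _), ?_⟩
    change wKum C.hw C.hq (p ^ k') (y + C.ε • wKum C.hw C.hq (p ^ k') y)
      = -((-C.ε) • (y + C.ε • wKum C.hw C.hq (p ^ k') y))
    rw [map_add, map_zsmul, wKum_wKum, neg_smul, neg_neg, smul_add, smul_smul, C.eps_mul_self,
      one_smul, add_comm]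
  rw [C.flip_J_eq_bot hX hpq hx hx0 k', AddSubgroup.mem_bot] at hu
  rw [C.mem_J]
  refine ⟨hy, ?_⟩
  have h1 : C.ε • (y + C.ε • wKum C.hw C.hq (p ^ k') y) = 0 := by rw [hu, smul_zero]
  rw [smul_add, smul_smul, C.eps_mul_self, one_smul] at h1
  exact eq_neg_of_add_eq_zero_right h1

/-- `p ∣ q - 1`, `p ≥ 5` ⟹ `p ∤ q + 1`. -/
theorem not_dvd_succ (h1 : 1 ≤ C.e) : ¬ p ∣ q + 1 := by
  intro h
  have h2 : p ∣ q - 1 := (dvd_pow_self p (by omega)).trans C.he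
  have hq1 : 1 ≤ q := C.hq.one_lt.le
  have h3 : p ∣ (q + 1) - (q - 1) := Nat.dvd_sub h h2
  have h4 : (q + 1) - (q - 1) = 2 := by omega
  rw [h4] at h3
  have := Nat.le_of_dvd (by norm_num) h3
  have := C.hp5
  omega

/-- (TR) is trivial if `Jc = 0`. -/
theorem TR_of_Jc_eq_bot (h : C.Jc = ⊥) : C.TR := by
  refine ⟨fun _ => 0, fun _ _ _ _ _ _ => (add_zero _).symm, fun s _ _ _ => (map_zero _).symm, ?_⟩
  intro z hz _
  rw [h, AddSubgroup.mem_bot] at hz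
  rw [hz, map_zero, smul_zero, sub_zero]

/-- **the form for the tower block**: to prove (TR) one may assume `Vth = J k` for all `k` (and `Jc ≠ 0`). -/
theorem TR_of_Vth_eq (hX : XBlock M q p) (h1 : 1 ≤ C.e)
    (H : C.Jc ≠ ⊥ → (∀ k : ℕ, Vth (M * q) (p ^ k) C.S C.a = C.J k) → C.TR) : C.TR := by
  by_cases h : C.Jc = ⊥
  · exact C.TR_of_Jc_eq_bot h
  · obtain ⟨x, hx⟩ := AddSubgroup.ne_bot_iff_exists_ne_zero.1 h
    exact H h fun k => C.Vth_eq_J hX (C.not_dvd_succ h1) x.2 (fun h0 => hx (Subtype.ext h0)) k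

end Ctx

end

end Fermat.Agent.S43.Fin
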