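import Fermat.Agent.S43.Fin.Defs
import Fermat.Agent.S43.I.Vth

/-!
# S43 / Fin / VthBridge : the two definitions of the `θ`-part agree

`Fin.Vth N m S a` (interface, `Fin/Defs.lean`) `= I.Vth N m hNS a` (block I, `I/Vth.lean`).
-/

set_option autoImplicit false

open AlgebraicCurve ModularCurve

namespace Fermat.Agent.S43.Fin

open Fermat.Agent.ES Fermat.Agent.SS

noncomputable section

variable {N m : ℕ} [NeZero N] {S : Finset ℕ} (hNS : ∀ r : ℕ, r.Prime → r ∣ N → r ∈ S) (a : ℕ → ℤ)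

theorem TT_eq_hk (ℓ : GP S) [NeZero ℓ.1] (x : Kum N m) :
    I.TT N m hNS a ℓ x = hk N m a ℓ.1 ℓ.2.1 (ℓ.good hNS).2.2 x := rfl

theorem TT_pow_eq_hk_iterate (ℓ : GP S) [NeZero ℓ.1] (n : ℕ) (x : Kum N m) :
    (I.TT N m hNS a ℓ ^ n) x = (hk N m a ℓ.1 ℓ.2.1 (ℓ.good hNS).2.2)^[n] x := by
  rw [Module.End.pow_apply]
  rfl

/-- the interface `θ`-part is the `θ`-part of block I. -/
theorem mem_Vth_iff_mem_I {x : Kum N m} : x ∈ Vth N m S a ↔ x ∈ I.Vth N m hNS a := by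
  rw [mem_Vth, I.mem_Vth]
  constructor
  · intro h ℓ
    have : NeZero ℓ.1 := ⟨ℓ.2.1.ne_zero⟩
    obtain ⟨n, hn⟩ := h ℓ.1 ℓ.2.1 (ℓ.good hNS).2.2 ℓ.2.2
    exact ⟨n, by rw [TT_pow_eq_hk_iterate]; exact hn⟩
  · intro h ℓ _ hℓ hℓN hS
    obtain ⟨n, hn⟩ := h ⟨ℓ, hℓ, hS⟩
    refine ⟨n, ?_⟩
    have := TT_pow_eq_hk_iterate (N := N) (m := m) hNS a (⟨ℓ, hℓ, hS⟩ : GP S) n x
    rw [hn] at this
    exact this.symm

theorem Vth_eq_I : Vth N m S a = I.Vth N m hNS a :=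
  AddSubgroup.ext fun _ => mem_Vth_iff_mem_I hNS a

namespace Ctx

variable {M q p : ℕ} [NeZero M] [NeZero q] (C : Ctx M q p)

/-- the primes of the level `M q` are in `S`. -/
theorem hLvl : ∀ r : ℕ, r.Prime → r ∣ M * q → r ∈ C.S := by
  intro r hr h
  rcases (Nat.Prime.dvd_mul hr).1 h with h | h
  · exact C.hMS r hr h
  · rw [(Nat.prime_dvd_prime_iff_eq hr C.hq).1 h]
    exact C.hqS

theorem mem_J_iff_I {k : ℕ} {y : Kum (M * q) (p ^ k)} :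
    y ∈ C.J k ↔ y ∈ I.Vth (M * q) (p ^ k) C.hLvl C.a ∧ wKum C.hw C.hq (p ^ k) y = -(C.ε • y) := by
  rw [mem_J, mem_Vth_iff_mem_I C.hLvl C.a]

end Ctx

end

end Fermat.Agent.S43.Fin
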