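import Fermat.Agent.S43.Fin.Defs
import Fermat.Agent.S43.Fin.D
import Fermat.Agent.S43.I.Tor
import Fermat.Agent.S43.CH.X0

/-!
# S43 / Fin / Loc : `lemmaD` for a context `C : Ctx M q p`

All the hypotheses of `lemmaD` which do not come from the blocks are proved here:
`Jc` is Galois stable, (CH) (`CH.tOp0_galKum`), the values of the cyclotomic character at `Sg`, `Ph`,
`(Sg - 1)² = 0` (`I.ram_le_tor`, `I.gal_of_mem_tor`), `t(Ph) = ε (q + 1)` from `C.LOC`, `q - 1 = ε c p ^ e`.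

* `Ctx.TR_of_e_eq_zero` : (TR) is void for `e = 0`;
* `Ctx.dconcl`          : `C.LOC → C.GA → C.TR →` the conclusion of `lemmaD` for every Galois stable `W ≤ Jc[p]` fixed by `Sg`.
-/

set_option autoImplicit false

open AlgebraicCurve ModularCurve

namespace Fermat.Agent.S43.Fin

open Fermat.Agent.ES Fermat.Agent.SS Fermat.Agent.S33 Fermat.Agent.S58
open Fermat.Agent.S43.CH (cyc tOp0 tOp0_galKum cyc_eq_of cyc_frob)

namespace Ctx

variable {M q p : ℕ} [NeZero M] [NeZero q] (C : Ctx M q p)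

theorem gal_hk_iterate (N m : ℕ) [NeZero N] (a : ℕ → ℤ) (ℓ : ℕ) [NeZero ℓ] (hℓ : ℓ.Prime)
    (hℓN : ¬ ℓ ∣ N) (s : GQ) (n : ℕ) (x : Kum N m) :
    (hk N m a ℓ hℓ hℓN)^[n] (galKum N m s x) = galKum N m s ((hk N m a ℓ hℓ hℓN)^[n] x) := by
  induction n generalizing x with
  | zero => rfl
  | succ n ih =>
    rw [Function.iterate_succ_apply, Function.iterate_succ_apply, ← ih]
    congr 1
    rw [hk_apply, hk_apply, map_sub, map_zsmul, galKum_heckeKum]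

theorem gal_mem_Vth {N m : ℕ} [NeZero N] {S : Finset ℕ} {a : ℕ → ℤ} (s : GQ) {x : Kum N m}
    (hx : x ∈ Vth N m S a) : galKum N m s x ∈ Vth N m S a := by
  intro ℓ _ hℓ hℓN hS
  obtain ⟨n, hn⟩ := hx ℓ hℓ hℓN hS
  exact ⟨n, by rw [gal_hk_iterate, hn, map_zero]⟩

theorem gal_mem_J (k : ℕ) (s : GQ) {x : Kum (M * q) (p ^ k)} (hx : x ∈ C.J k) :
    galKum (M * q) (p ^ k) s x ∈ C.J k := by
  rw [mem_J] at hx ⊢
  exact ⟨gal_mem_Vth s hx.1, by rw [← galKum_wKum, hx.2, map_neg, map_zsmul]⟩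

theorem gal_mem_Jc (s : GQ) {x : Kum (M * q) (p ^ (C.e + 1))} (hx : x ∈ C.Jc) :
    C.g s x ∈ C.Jc := C.gal_mem_J _ s hx

include C in
theorem not_dvd_pow (k : ℕ) : ¬ q ∣ p ^ k := fun h =>
  C.hqp ((Nat.prime_dvd_prime_iff_eq C.hq C.hp).1 (C.hq.dvd_of_dvd_pow h))

/-- `(σ - 1)² = 0` for `σ` in the inertia group. -/
theorem inertia_sq (m : ℕ) (hqm : ¬ q ∣ m) {σ : GQ} (hσ : σ ∈ C.A.inertiaSubgroupIn ℚ)
    (x : Kum (M * q) m) :
    galKum (M * q) m σ x + galKum (M * q) m σ⁻¹ x = (2 : ℤ) • x := by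
  set y := galKum (M * q) m σ⁻¹ x with hy
  have hxy : galKum (M * q) m σ y = x := by
    rw [hy, ← galKum_mul, mul_inv_cancel, galKum_one]
  have h1 : galKum (M * q) m σ y - y ∈ I.Ram C.A m ⊤ :=
    AddSubgroup.subset_closure ⟨σ, hσ, y, trivial, rfl⟩
  have h2 := I.gal_of_mem_tor C.hq C.hqM hqm C.hw C.hA hσ (I.ram_le_tor C.hq C.hw ⊤ h1)
  rw [map_sub, hxy] at h2
  rw [two_smul]
  have : galKum (M * q) m σ x = (x - y) + x := by rw [← h2]; abel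
  rw [this]
  abel

/-- `ℤ`-smul by the value of a unit of `ZMod n` on a group killed by `n`. -/
theorem loc_val_zsmul {n : ℕ} [NeZero n] {X : Type*} [AddCommGroup X]
    (hX : ∀ x : X, n • x = 0) (u : (ZMod n)ˣ) (k : ℤ) (hk : (u : ZMod n) = (k : ZMod n))
    (x : X) : (((u : ZMod n).val : ℕ) : ℤ) • x = k • x := by
  have h1 : ((((u : ZMod n).val : ℕ) : ℤ) : ZMod n) = (k : ZMod n) := by
    rw [Int.cast_natCast, ZMod.natCast_zmod_val, hk]
  rw [ZMod.intCast_eq_intCast_iff_dvd_sub] at h1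
  obtain ⟨t, ht⟩ := h1
  have h2 : k = (((u : ZMod n).val : ℕ) : ℤ) + (n : ℤ) * t := by linarith
  have h3 : ((n : ℤ)) • x = 0 := by rw [natCast_zsmul, hX]
  rw [h2, add_smul, mul_comm, mul_smul, h3, smul_zero, add_zero]

theorem loc_cyc_inertia (n : ℕ) [NeZero n] (hnd : ¬ q ∣ n) (s : GQ)
    (hs : s ∈ C.A.inertiaSubgroupIn ℚ) : ((cyc n s : (ZMod n)ˣ) : ZMod n) = 1 := by
  rw [cyc_eq_of n s 1 (fun z hz => by
    rw [pow_one]
    exact Fermat.Agent.S31.inertia_apply_root C.A C.hq C.hA s hs hnd hz), Nat.cast_one]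

theorem exists_c : ∃ c : ℤ, (q : ℤ) - 1 = C.ε * c * (p : ℤ) ^ C.e ∧ ¬ (p : ℤ) ∣ c := by
  obtain ⟨c', hc'⟩ := C.he
  have hεε : C.ε * C.ε = 1 := by rcases C.hε with h | h <;> rw [h] <;> norm_num
  have hq1 : 1 ≤ q := C.hq.one_le
  have h1 : (q : ℤ) - 1 = (p : ℤ) ^ C.e * c' := by
    have : ((q - 1 : ℕ) : ℤ) = ((p ^ C.e * c' : ℕ) : ℤ) := by rw [hc']
    rw [Nat.cast_sub hq1] at this
    push_cast at this
    exact this
  refine ⟨C.ε * c', ?_, ?_⟩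
  · rw [h1]
    linear_combination (-(c' : ℤ) * (p : ℤ) ^ C.e) * hεε
  · intro h
    have h2 : (p : ℤ) ∣ c' := by
      have := h.mul_left C.ε
      rwa [← mul_assoc, hεε, one_mul] at this
    have h3 : p ∣ c' := Int.natCast_dvd_natCast.1 h2
    apply C.he'
    rw [hc', pow_succ]
    exact Nat.mul_dvd_mul_left _ h3

/-- (TR) is void when `p ∤ q - 1`. -/
theorem TR_of_e_eq_zero (he : C.e = 0) : C.TR := by
  have h0 : ∀ z : Kum (M * q) (p ^ (C.e + 1)), p ^ C.e • z = 0 → z = 0 := by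
    intro z hz
    have h1 : p ^ C.e = 1 := by rw [he, pow_zero]
    rwa [h1, one_smul] at hz
  refine ⟨fun _ => 0, fun _ _ _ _ _ _ => (add_zero _).symm, fun s _ _ _ => (map_zero _).symm, ?_⟩
  intro z _ hz
  rw [h0 z hz, map_zero, smul_zero, sub_zero]

/-- **the conclusion of `lemmaD` for a context.** -/
theorem dconcl (hLOC : C.LOC) (hGA : C.GA) (hTR : C.TR)
    (W : AddSubgroup (Kum (M * q) (p ^ (C.e + 1)))) (hWJ : W ≤ C.Jc)
    (hWG : ∀ s, ∀ x ∈ W, C.g s x ∈ W) (hWp : ∀ x ∈ W, p • x = 0)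
    (hWS : ∀ x ∈ W, C.g C.Sg x = x)
    (κ : GQ) (hκ : κ * κ = 1) (P : Kum (M * q) (p ^ (C.e + 1))) (hPW : P ∈ W)
    (hκP : C.g κ P = P) (s : GQ) : C.g κ (C.g s P) = C.g s P := by
  have : NeZero p := ⟨C.hp.ne_zero⟩
  obtain ⟨c, hc1, hc2⟩ := C.exists_c
  obtain ⟨β, hβ1, hβ2, hβ3⟩ := hTR
  have hkill : ∀ x : Kum (M * q) (p ^ (C.e + 1)), p ^ (C.e + 1) • x = 0 := Kum.nsmul_eq_zero
  have hnd := C.not_dvd_pow (C.e + 1)
  refine lemmaD (fun s => C.g s) (fun x => galKum_one x) (fun g h x => galKum_mul g h x)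
    (fun s => ((((cyc (p ^ (C.e + 1)) s : (ZMod (p ^ (C.e + 1)))ˣ) : ZMod (p ^ (C.e + 1))).val : ℕ) : ℤ))
    p C.e q C.hp (by have := C.hp5; omega) C.ε c C.hε hc1 hc2 C.Jc
    (fun s x hx => C.gal_mem_Jc s hx) (fun x _ => hkill x) ?_ ?_ C.Sg C.Ph ?_ ?_ ?_ ?_
    W hWJ hWG hWp ?_ β hβ1 hβ2 hβ3 κ hκ P hPW hκP s
  · -- (CH)
    intro g h x _
    have := tOp0_galKum (M * q) (p ^ (C.e + 1)) g h x
    unfold tOp0 at this
    simp only [natCast_zsmul]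
    exact this
  · -- `d` multiplicative
    intro g h x _
    refine loc_val_zsmul hkill _ _ ?_ x
    rw [map_mul, Units.val_mul]
    push_cast
    rw [ZMod.natCast_zmod_val, ZMod.natCast_zmod_val]
  · intro x _
    have := loc_val_zsmul hkill (cyc (p ^ (C.e + 1)) C.Sg) 1
      (by rw [C.loc_cyc_inertia _ hnd C.Sg C.hSg.1, Int.cast_one]) x
    rw [one_smul] at this
    exact this
  · intro x _
    exact loc_val_zsmul hkill (cyc (p ^ (C.e + 1)) C.Ph) (q : ℤ)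
      (by rw [cyc_frob _ C.hq hnd C.A C.hA C.Ph C.hPh, Int.cast_natCast]) x
  · intro x _
    exact C.inertia_sq _ hnd C.hSg.1 x
  · intro x hx
    have h1 := hLOC _ (C.gal_mem_Jc C.Ph⁻¹ hx)
    have h2 : C.g C.Ph (C.g C.Ph⁻¹ x) = x := by
      rw [← galKum_mul, mul_inv_cancel, galKum_one]
    rw [h2] at h1
    have : C.g C.Ph x + (q : ℤ) • C.g C.Ph⁻¹ x
        = (C.g C.Ph x - (C.ε * ((q : ℤ) + 1)) • x + (q : ℤ) • C.g C.Ph⁻¹ x)
          + (C.ε * ((q : ℤ) + 1)) • x := by abel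
    rw [this, h1, zero_add]
  · intro P1 hP1
    exact hGA P1 (hWJ hP1) (hWp P1 hP1) (hWS P1 hP1)

end Ctx

end Fermat.Agent.S43.Fin
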