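import Fermat.Agent.S43.Fin.Defs
import Fermat.Agent.S43.Fin.End
import Fermat.Agent.S43.Fin.Data
import Fermat.Agent.S43.Fin.D
import Fermat.Agent.S43.Tame.Cyc
import Fermat.Agent.S54.Frobenius
import Fermat.Agent.Lib.FrobDensity.Bridge

/-!
# S43 / Fin / Mk : construction of the context `Ctx M q p` from the hypotheses of `Core`     (helper41)

* `exists_frob_cyc_one` : a Frobenius at `A` which is trivial on `μ_q`;
* `exists_ctx`: the context, with prescribed `A W S w ε`  (uses `Fin/Data.lean` of helper91);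
* `lemmaD0`   : `lemmaD` without the (unused) hypothesis `κ * κ = 1`.
-/

set_option autoImplicit false

open AlgebraicCurve ModularCurve

namespace Fermat.Agent.S43.Fin

open Fermat.Agent.ES Fermat.Agent.SS Fermat.Agent.S33 Fermat.Agent.S58 Fermat.Agent.S44.Soft

/-- a Frobenius at the given `A` which is trivial on `μ_q`. -/
theorem exists_frob_cyc_one {q : ℕ} [NeZero q] (hq : q.Prime) (A : ValuationSubring Qb)
    (hA : A.LiesOverPrime q) : ∃ Ph : GQ, A.IsFrobeniusAt Ph q ∧ CH.cyc q Ph = 1 := by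
  obtain ⟨Ph, hPh⟩ := Fermat.Agent.S54.exists_isFrobeniusAt q hq A hA
  obtain ⟨s, hs, hcs⟩ := Tame.cyc_surj_inertia hq A hA (CH.cyc q Ph)⁻¹
  exact ⟨Ph * s, Fermat.Agent.FD.isFrobeniusAt_mul_inertia A q Ph s hPh hs, by
    rw [map_mul, hcs, mul_inv_cancel]⟩

/-- **the context**, with prescribed `A W S w ε`. -/
theorem exists_ctx {M q p : ℕ} [NeZero M] [NeZero q] (hp : p.Prime) (hp5 : 5 ≤ p) (hq : q.Prime)
    (hq2 : q ≠ 2) (hqp : q ≠ p) (hqM : ¬ q ∣ M) (hpM : ¬ p ∣ M) (hMsq : Squarefree M)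
    (A : ValuationSubring Qb) (hA : A.LiesOverPrime q)
    (W : WeierstrassCurve ℤ) (hΔ : W.Δ ≠ 0)
    (hirr : WeierstrassCurve.Affine.Point.GaloisRepIsIrreducible (K := Qb) ℚ (EQ W) p)
    (S : Finset ℕ) (hpS : p ∈ S) (hqS : q ∈ S)
    (hMS : ∀ r : ℕ, r.Prime → r ∣ M → r ∈ S) (hWS : ∀ r : ℕ, r.Prime → (r : ℤ) ∣ W.Δ → r ∈ S)
    (hSep : ∀ (D : ℕ) [NeZero D] (hDS : ∀ r : ℕ, r.Prime → r ∣ D → r ∈ S), D ∣ M * q → D ≠ M * q →
      Sep D p S hDS (fun ℓ => W.apOfModel ℓ))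
    (w : FF (M * q) →ₐ[Qb] FF (M * q)) (hw : IsAL M q w) (ε : ℤ) (hε : ε = 1 ∨ ε = -1) :
    ∃ C : Ctx M q p, C.A = A ∧ C.W = W ∧ C.S = S ∧ C.w = w ∧ C.ε = ε := by
  have : Fact p.Prime := ⟨hp⟩
  have : Fact q.Prime := ⟨hq⟩
  have hp2 : p ≠ 2 := by omega
  have hNS : ∀ r : ℕ, r.Prime → r ∣ M * q → r ∈ S := by
    intro r hr h
    rcases (Nat.Prime.dvd_mul hr).1 h with h | h
    · exact hMS r hr h
    · rw [(Nat.prime_dvd_prime_iff_eq hr hq).1 h]; exact hqS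
  obtain ⟨Sg, hSg⟩ := Tame.exists_isGenOn hp2 hqp A hA
  obtain ⟨Ph, hPh, hPh1⟩ := exists_frob_cyc_one hq A hA
  obtain ⟨e, he, he'⟩ := exists_exp (n := q - 1) hp (by have := hq.two_le; omega)
  exact ⟨{ hp := hp, hp5 := hp5, hq := hq, hq2 := hq2, hqp := hqp, hqM := hqM, hpM := hpM,
           hMsq := hMsq, A := A, hA := hA, W := W, hΔ := hΔ, hirr := hirr, S := S, hpS := hpS,
           hqS := hqS, hMS := hMS, hWS := hWS, hSep := hSep,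
           hnE := exists_nonEis hp hp2 (M * q) W hΔ hirr S hpS hNS hWS,
           w := w, hw := hw, Sg := Sg, hSg := hSg, Ph := Ph, hPh := hPh, hPh1 := hPh1, ε := ε, hε := hε,
           e := e, he := he, he' := he' }, rfl, rfl, rfl, rfl, rfl⟩

/-- `lemmaD` without `κ * κ = 1`. -/
theorem lemmaD0 {K G : Type*} [AddCommGroup K] [Group G] (ρ : G → K →+ K)
    (h1 : ∀ x, ρ 1 x = x) (hmul : ∀ g h x, ρ (g * h) x = ρ g (ρ h x)) (d : G → ℤ)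
    (p a q : ℕ) (hp : p.Prime) (ε c : ℤ) (hε : ε = 1 ∨ ε = -1)
    (hq : (q : ℤ) - 1 = ε * c * (p : ℤ) ^ a) (hc : ¬ (p : ℤ) ∣ c)
    (Jc : AddSubgroup K) (hJG : ∀ g, ∀ x ∈ Jc, ρ g x ∈ Jc)
    (hCH : ∀ g h, ∀ x ∈ Jc, ρ h (ρ g x + d g • ρ g⁻¹ x) = ρ g (ρ h x) + d g • ρ g⁻¹ (ρ h x))
    (hd : ∀ g h, ∀ x ∈ Jc, d (g * h) • x = (d g * d h) • x)
    (Sg Ph : G) (hdS : ∀ x ∈ Jc, d Sg • x = x) (hdP : ∀ x ∈ Jc, d Ph • x = (q : ℤ) • x)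
    (hS : ∀ x ∈ Jc, ρ Sg x + ρ Sg⁻¹ x = (2 : ℤ) • x)
    (hP : ∀ x ∈ Jc, ρ Ph x + (q : ℤ) • ρ Ph⁻¹ x = (ε * ((q : ℤ) + 1)) • x)
    (W : AddSubgroup K) (hWJ : W ≤ Jc) (hWG : ∀ g, ∀ x ∈ W, ρ g x ∈ W) (hWp : ∀ x ∈ W, p • x = 0)
    (hGA : ∀ P ∈ W, ∃ P' ∈ Jc, p ^ a • P' = P ∧ ρ Sg P' = P' ∧ ρ Ph P' = (ε * (q : ℤ)) • P')
    (β : K → K)
    (hβadd : ∀ x ∈ Jc, ∀ y ∈ Jc, p ^ a • x = 0 → p ^ a • y = 0 → β (x + y) = β x + β y)
    (hβG : ∀ g, ∀ x ∈ Jc, p ^ a • x = 0 → β (ρ g x) = ρ g (β x))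
    (hTR : ∀ z ∈ Jc, p ^ a • z = 0 → ρ Ph z - ε • z = β (ρ Sg z - z))
    (κ : G) (P : K) (hPW : P ∈ W) (hκP : ρ κ P = P) (g : G) :
    ρ κ (ρ g P) = ρ g P := by
  have hpow : ∀ x : K, ((p : ℤ) ^ a) • x = p ^ a • x := fun x => by
    rw [← Nat.cast_pow, natCast_zsmul]
  have hεε : ε * ε = 1 := by rcases hε with h | h <;> rw [h] <;> norm_num
  have hq' : ε * ((q : ℤ) - 1) = c * (p : ℤ) ^ a := by
    rw [hq]
    linear_combination (c * (p : ℤ) ^ a) * hεε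
  have hcop : IsCoprime c (p : ℤ) :=
    ((Nat.prime_iff_prime_int.mp hp).coprime_iff_not_dvd.2 hc).symm
  refine Fermat.Agent.S43.Alg.dprime ρ h1 hmul Jc hJG d hd
    (fun g h x hx => hCH g h x hx) (p : ℤ) a Sg Ph ε c (q : ℤ) hq' ?_ ?_ W hWJ hWG ?_ β ?_ ?_ ?_
    hcop ?_ κ P hPW hκP g
  · intro x hx
    unfold Fermat.Agent.S43.Alg.TT
    rw [hdS _ (hJG _ _ hx)]
    exact hS x hx
  · intro x hx
    unfold Fermat.Agent.S43.Alg.TT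
    rw [hdP _ (hJG _ _ hx)]
    exact hP x hx
  · intro P1 hP1
    obtain ⟨P', h1', h2', h3', h4'⟩ := hGA P1 hP1
    exact ⟨P', h1', by rw [hpow, h2'], h3', h4'⟩
  · intro x hx hx0 y hy hy0
    exact hβadd x hx y hy (by rw [← hpow, hx0]) (by rw [← hpow, hy0])
  · intro g x hx hx0
    exact hβG g x hx (by rw [← hpow, hx0])
  · intro z hz hz0
    exact hTR z hz (by rw [← hpow, hz0])
  · intro x hx
    rw [natCast_zsmul]
    exact hWp x hx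

end Fermat.Agent.S43.Fin
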