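import Fermat.Agent.S43.Th.Bridge
import Fermat.Agent.S43.Fin.Pow
import Fermat.Agent.S43.Fin.Pow2
import Fermat.Agent.S44.Soft.Approx

/-!
# S43 / Fin / SignAll : in the hard case `p ∣ q - 1` the Atkin-Lehner involution is ONE sign on the whole `θ`-part

`sign` : `XBlock M q p → ∀ C : Ctx M q p, 1 ≤ C.e →`
  `(∀ k, ∀ y ∈ Vth (M q) (p ^ k), w y = - ε y)  ∨  (∀ k, ∀ y ∈ Vth (M q) (p ^ k), w y = ε y)`.
`sign_J` : `(∀ k, C.J k = Vth (M q) (p ^ k)) ∨ (∀ k, C.J k = ⊥)`.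

Proof.  A nonzero `w`-eigenpart of `Vth` contains a common eigenvector killed by `p`, which comes from `XX (M q) p` (`powMap`).
(LOC) for both signs and the scalar Cayley-Hamilton relation on `XX` (`S44.Soft.exists_approx`) give
`t_E(Φ) = ε (q + 1) = - ε (q + 1)` in `ZMod p`, i.e. `p ∣ 2 (q + 1)`: impossible when `p ∣ q - 1`, `p ≥ 5`.
-/

set_option autoImplicit false

open AlgebraicCurve ModularCurve

namespace Fermat.Agent.S43.Fin

open Fermat.Agent.ES Fermat.Agent.SS Fermat.Agent.S30 Fermat.Agent.S44.Soft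

noncomputable section

variable {M q p : ℕ} [NeZero M] [NeZero q]

theorem Ctx.Sign_hNS (C : Ctx M q p) : ∀ r : ℕ, r.Prime → r ∣ M * q → r ∈ C.S := by
  intro r hr hd
  rcases (Nat.Prime.dvd_mul hr).1 hd with h | h
  · exact C.hMS r hr h
  · rw [(Nat.prime_dvd_prime_iff_eq hr C.hq).1 h]
    exact C.hqS

/-- the same context with the opposite sign. -/
def Ctx.Sign_flip (C : Ctx M q p) : Ctx M q p :=
  { C with
    ε := -C.ε
    hε := by rcases C.hε with h | h <;> simp [h] }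

/-- a nonzero `J k` meets `XX`. -/
theorem Ctx.Sign_exists_XX (C : Ctx M q p) {k : ℕ} (h : C.J k ≠ ⊥) :
    ∃ x0 : Kum (M * q) p, x0 ≠ 0 ∧ x0 ∈ XX (M * q) p C.S C.a ∧
      wKum C.hw C.hq p x0 = -(C.ε • x0) := by
  obtain ⟨x, hxJ, hx0, hpx, hx⟩ := Th.fin_exists_eigen_of_gal C.Sign_hNS C.hp C.hpS (C.J k) h
    (fun σ x hx => C.galKum_mem_J σ hx) inf_le_left
  obtain _ | k := k
  · exact absurd ((one_nsmul x).symm.trans (Kum.nsmul_eq_zero x)) hx0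
  have hk : p ^ (k + 1) = p * p ^ k := pow_succ' p k
  obtain ⟨z, rfl⟩ := exists_powMap_of_nsmul (p ^ k) hk (pow_ne_zero _ C.hp.ne_zero) C.hp.ne_zero
    x hpx
  have hinj := powMap_injective (N := M * q) (p ^ k) hk (pow_ne_zero _ C.hp.ne_zero) C.hp.ne_zero
  refine ⟨z, fun h0 => hx0 (by rw [h0, map_zero]), ?_, ?_⟩
  · rw [mem_XX]
    intro ℓ _ hℓ hℓN hS
    apply hinj
    rw [powMap_heckeKum, hx ℓ hℓ hℓN hS, map_zsmul]
  · apply hinj
    rw [powMap_wKum, ((C.mem_J).1 hxJ).2, map_neg, map_zsmul]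

/-- (LOC) at exponent `p`. -/
theorem Ctx.Sign_loc (C : Ctx M q p) (hL : C.LOC) {x0 : Kum (M * q) p}
    (hx : x0 ∈ XX (M * q) p C.S C.a) (hw : wKum C.hw C.hq p x0 = -(C.ε • x0)) :
    galKum (M * q) p C.Ph (galKum (M * q) p C.Ph x0)
      - (C.ε * ((q : ℤ) + 1)) • galKum (M * q) p C.Ph x0 + (q : ℤ) • x0 = 0 := by
  have hk : p ^ (C.e + 1) = p * p ^ C.e := pow_succ' p C.e
  have hinj := powMap_injective (N := M * q) (p ^ C.e) hk (pow_ne_zero _ C.hp.ne_zero)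
    C.hp.ne_zero
  have hy : powMap (p ^ C.e) hk x0 ∈ C.Jc := by
    unfold Ctx.Jc
    rw [C.mem_J]
    refine ⟨(powMap_mem_Vth_iff _ hk (pow_ne_zero _ C.hp.ne_zero) C.hp.ne_zero _ _ x0).2
      (Th.fin_mem_of_XX C.Sign_hNS hx), ?_⟩
    rw [← powMap_wKum, hw, map_neg, map_zsmul]
  have h := hL _ hy
  apply hinj
  rw [map_zero, map_add, map_sub, map_zsmul, map_zsmul, powMap_galKum, powMap_galKum]
  exact h

/-- the trace of `Φ` on `XX` is a scalar, so it is determined by any quadratic relation. -/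
theorem Ctx.Sign_trace (C : Ctx M q p) :
    ∃ τ : ZMod p, ∀ (ε' : ℤ) (x0 : Kum (M * q) p), x0 ≠ 0 → x0 ∈ XX (M * q) p C.S C.a →
      galKum (M * q) p C.Ph (galKum (M * q) p C.Ph x0)
        - (ε' * ((q : ℤ) + 1)) • galKum (M * q) p C.Ph x0 + (q : ℤ) • x0 = 0 →
      τ = ((ε' * ((q : ℤ) + 1) : ℤ) : ZMod p) := by
  have : Fact p.Prime := ⟨C.hp⟩
  have hp2 : p ≠ 2 := by
    have := C.hp5
    omega
  obtain ⟨ℓ, j, -, -, -, -, h⟩ := exists_approx hp2 (M * q) C.W C.hΔ C.S C.hpS C.Sign_hNS C.hWS C.Ph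
  refine ⟨luc ((C.W.apOfModel ℓ : ℤ) : ZMod p) (ℓ : ZMod p) j, fun ε' x0 hx0 hx hrel => ?_⟩
  have h1 := h _ (stable_XX (M * q) p C.S C.a C.Ph x0 hx)
  rw [om_frob p C.hq C.hqp C.A C.hA C.Ph C.hPh, galRep_apply, galRep_apply, galRep_apply,
    ← galKum_mul C.Ph⁻¹, inv_mul_cancel, galKum_one, natCast_zmod_smul] at h1
  have h2 : galKum (M * q) p C.Ph (galKum (M * q) p C.Ph x0) + q • x0
      = ((ε' * ((q : ℤ) + 1) : ℤ) : ZMod p) • galKum (M * q) p C.Ph x0 := by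
    rw [intCast_zmod_smul, ← natCast_zsmul]
    rw [sub_add_eq_add_sub, sub_eq_zero] at hrel
    exact hrel
  rw [h2] at h1
  have hne : galKum (M * q) p C.Ph x0 ≠ 0 := by
    intro h0
    apply hx0
    have := congrArg (galKum (M * q) p C.Ph⁻¹) h0
    rwa [← galKum_mul, inv_mul_cancel, galKum_one, map_zero] at this
  have h3 := sub_eq_zero.2 h1
  rw [← sub_smul, smul_eq_zero] at h3
  rcases h3 with h3 | h3
  · exact (sub_eq_zero.1 h3).symm
  · exact absurd h3 hne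

/-- the two eigenparts cannot both be nonzero. -/
theorem Ctx.Sign_not_both (hX : XBlock M q p) (C : Ctx M q p) (he : 1 ≤ C.e) {k k' : ℕ}
    (h : C.J k ≠ ⊥) (h' : C.Sign_flip.J k' ≠ ⊥) : False := by
  obtain ⟨x, hx0, hx, hwx⟩ := C.Sign_exists_XX h
  obtain ⟨y, hy0, hy, hwy⟩ := C.Sign_flip.Sign_exists_XX h'
  obtain ⟨τ, hτ⟩ := C.Sign_trace
  have e1 := hτ C.ε x hx0 hx (C.Sign_loc (hX C).1 hx hwx)
  have e2 := hτ (-C.ε) y hy0 hy (C.Sign_flip.Sign_loc (hX C.Sign_flip).1 hy hwy)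
  rw [e1, ZMod.intCast_eq_intCast_iff_dvd_sub] at e2
  have hq1 : 1 ≤ q := C.hq.pos
  have hpq : (p : ℤ) ∣ (q : ℤ) - 1 := by
    have h1 : p ∣ q - 1 := (dvd_pow_self p (by omega)).trans C.he
    have h2 : ((p : ℕ) : ℤ) ∣ ((q - 1 : ℕ) : ℤ) := Int.natCast_dvd_natCast.2 h1
    rwa [Nat.cast_sub hq1, Nat.cast_one] at h2
  have h4 : (p : ℤ) ∣ 4 := by
    rcases C.hε with hε | hε
    · rw [hε] at e2
      have := dvd_add e2 (hpq.mul_left 2)
      have h5 : -1 * ((q : ℤ) + 1) - 1 * ((q : ℤ) + 1) + 2 * ((q : ℤ) - 1) = -4 := by ring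
      rw [h5] at this
      exact (dvd_neg.1 this)
    · rw [hε] at e2
      have := dvd_sub e2 (hpq.mul_left 2)
      have h5 : - -1 * ((q : ℤ) + 1) - -1 * ((q : ℤ) + 1) - 2 * ((q : ℤ) - 1) = 4 := by ring
      rwa [h5] at this
  have h5 := Int.le_of_dvd (by norm_num) h4
  have := C.hp5
  omega

/-- if some `J k₀` is nonzero then `w = - ε` on the whole `θ`-part (= helper46's `sign_unique`). -/
theorem sign_of_ne_bot (hX : XBlock M q p) (C : Ctx M q p) (he : 1 ≤ C.e) {k0 : ℕ}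
    (hk0 : C.J k0 ≠ ⊥) (k : ℕ) (y : Kum (M * q) (p ^ k)) (hy : y ∈ Vth (M * q) (p ^ k) C.S C.a) :
    wKum C.hw C.hq (p ^ k) y = -(C.ε • y) := by
  have hεε : C.ε * C.ε = 1 := by rcases C.hε with h | h <;> rw [h] <;> norm_num
  have hbot : C.Sign_flip.J k = ⊥ := by
    by_contra hne
    exact Ctx.Sign_not_both hX C he hk0 hne
  have hz : wKum C.hw C.hq (p ^ k) y + C.ε • y ∈ C.Sign_flip.J k := by
    rw [Ctx.mem_J]
    refine ⟨AddSubgroup.add_mem _ (Th.fin_wKum_mem C.Sign_hNS C.hp C.hpS C.hw C.hq hy)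
      (AddSubgroup.zsmul_mem _ hy _), ?_⟩
    change wKum C.hw C.hq (p ^ k) (wKum C.hw C.hq (p ^ k) y + C.ε • y)
      = -((-C.ε) • (wKum C.hw C.hq (p ^ k) y + C.ε • y))
    rw [map_add, wKum_wKum, map_zsmul, neg_smul, neg_neg, smul_add, smul_smul, hεε, one_smul,
      add_comm]
  rw [hbot, AddSubgroup.mem_bot] at hz
  exact eq_neg_of_add_eq_zero_left hz

/-- if `J k = 0` then `w = ε` on the `θ`-part (no hypothesis needed). -/
theorem sign_of_bot (C : Ctx M q p) {k : ℕ} (hbot : C.J k = ⊥) (y : Kum (M * q) (p ^ k))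
    (hy : y ∈ Vth (M * q) (p ^ k) C.S C.a) : wKum C.hw C.hq (p ^ k) y = C.ε • y := by
  have hεε : C.ε * C.ε = 1 := by rcases C.hε with h | h <;> rw [h] <;> norm_num
  have hz : wKum C.hw C.hq (p ^ k) y - C.ε • y ∈ C.J k := by
    rw [Ctx.mem_J]
    refine ⟨AddSubgroup.sub_mem _ (Th.fin_wKum_mem C.Sign_hNS C.hp C.hpS C.hw C.hq hy)
      (AddSubgroup.zsmul_mem _ hy _), ?_⟩
    rw [map_sub, wKum_wKum, map_zsmul, smul_sub, smul_smul, hεε, one_smul, neg_sub]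
  rw [hbot, AddSubgroup.mem_bot] at hz
  exact sub_eq_zero.1 hz

/-- **(SIGN)**: in the hard case `w` is one sign on the whole `θ`-part, at all exponents `p ^ k`. -/
theorem sign (hX : XBlock M q p) (C : Ctx M q p) (he : 1 ≤ C.e) :
    (∀ k, ∀ y ∈ Vth (M * q) (p ^ k) C.S C.a, wKum C.hw C.hq (p ^ k) y = -(C.ε • y)) ∨
    (∀ k, ∀ y ∈ Vth (M * q) (p ^ k) C.S C.a, wKum C.hw C.hq (p ^ k) y = C.ε • y) := by
  by_cases h : ∃ k, C.J k ≠ ⊥
  · obtain ⟨k0, hk0⟩ := h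
    exact Or.inl (sign_of_ne_bot hX C he hk0)
  · refine Or.inr fun k y hy => sign_of_bot C ?_ y hy
    by_contra hne
    exact h ⟨k, hne⟩

/-- (SIGN), in terms of `J`: either `J k` is the whole `θ`-part for all `k`, or `J k = 0` for all `k`. -/
theorem sign_J (hX : XBlock M q p) (C : Ctx M q p) (he : 1 ≤ C.e) :
    (∀ k, C.J k = Vth (M * q) (p ^ k) C.S C.a) ∨ (∀ k, C.J k = ⊥) := by
  by_cases h : ∃ k, C.J k ≠ ⊥
  · obtain ⟨k0, hk0⟩ := h
    refine Or.inl fun k => le_antisymm inf_le_left fun y hy => ?_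
    rw [Ctx.mem_J]
    exact ⟨hy, sign_of_ne_bot hX C he hk0 k y hy⟩
  · refine Or.inr fun k => ?_
    by_contra hne
    exact h ⟨k, hne⟩

/-- (TR) is trivial when `Jc = 0`. -/
theorem Ctx.TR_of_bot (C : Ctx M q p) (h : C.Jc = ⊥) : C.TR := by
  refine ⟨fun _ => 0, fun _ _ _ _ _ _ => (add_zero _).symm, fun _ _ _ _ => (map_zero _).symm,
    fun z hz _ => ?_⟩
  rw [h, AddSubgroup.mem_bot] at hz
  rw [hz, map_zero, smul_zero, sub_zero]

end

end Fermat.Agent.S43.Fin
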